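import Fermat.Agent.Nevanlinna.SecondMain

/-!
# Five values, multiplicities, and the equation `f ^ m + g ^ k = 1`

Consequences of the second main theorem: the five value theorem, the bound `∑ (1 - 1 / m (a)) ≤ 2`
for completely ramified values, and Fermat's equation in meromorphic and in entire functions.
-/

set_option autoImplicit false

noncomputable section

namespace FA.Nevanlinna

open Complex Filter Function MeasureTheory Metric Set MeromorphicOn
open ValueDistribution Function.locallyFinsuppWithin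
open scoped Real Topology

variable {f g : ℂ → ℂ}

/-- A meromorphic function which is not zero off a discrete set has a finite order everywhere. -/
theorem order_ne_top_of_not_eventuallyEq_zero (hf : Meromorphic f)
    (h : ¬f =ᶠ[codiscrete ℂ] fun _ => 0) (z : ℂ) : meromorphicOrderAt f z ≠ ⊤ := by
  intro hz
  refine h ?_
  have hall : ∀ x, meromorphicOrderAt f x = ⊤ := fun x => by
    by_contra hx
    exact hf.exists_meromorphicOrderAt_ne_top_iff_forall.1 ⟨x, hx⟩ z hz
  show {w | f w = 0} ∈ codiscreteWithin (univ : Set ℂ)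
  rw [mem_codiscreteWithin_iff_forall_mem_nhdsNE]
  intro x _
  filter_upwards [meromorphicOrderAt_eq_top_iff.1 (hall x)] with w hw
  exact Or.inl hw

theorem eventuallyEq_nhdsNE_of_codiscrete (h : f =ᶠ[codiscrete ℂ] g) (z : ℂ) :
    f =ᶠ[𝓝[≠] z] g := by
  have h' := mem_codiscreteWithin_iff_forall_mem_nhdsNE.1 h z (mem_univ z)
  filter_upwards [h'] with w hw
  exact hw.resolve_right (by simp)

theorem Nonconst.not_const (hn : Nonconst f) (c : ℂ) : ¬f =ᶠ[codiscrete ℂ] fun _ => c := by
  intro h
  refine hn c 0 (meromorphicOrderAt_eq_top_iff.2 ?_)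
  filter_upwards [eventuallyEq_nhdsNE_of_codiscrete h 0] with w hw
  rw [hw, sub_self]

/-- A continuous function which is constant off a discrete set is constant. -/
theorem eq_const_of_continuous (hf : Continuous f) {c : ℂ} (h : f =ᶠ[codiscrete ℂ] fun _ => c)
    (z : ℂ) : f z = c :=
  tendsto_nhds_unique ((hf.tendsto z).mono_left (nhdsWithin_le_nhds (s := {z}ᶜ)))
    (tendsto_const_nhds.congr' (eventuallyEq_nhdsNE_of_codiscrete h z).symm)

/-- **Multiplicities.** -/
theorem sum_one_sub_inv_le_two (hf : Meromorphic f) (hn : Nonconst f) (A : Finset ℂ)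
    (m : ℂ → ℕ) (hm : ∀ a ∈ A, 1 ≤ m a) {M : ℕ} (hM : 1 ≤ M)
    (hA : ∀ a ∈ A, ∀ z, Tendsto f (𝓝[≠] z) (𝓝 a) →
      ((m a : ℤ) : WithTop ℤ) ≤ meromorphicOrderAt (fun w => f w - a) z)
    (hP : ∀ z, meromorphicOrderAt f z < 0 →
      meromorphicOrderAt f z ≤ ((-(M : ℤ) : ℤ) : WithTop ℤ)) :
    ∑ a ∈ A, (1 - 1 / (m a : ℝ)) + (1 - 1 / (M : ℝ)) ≤ 2 := by
  classical
  have key : ∀ (a : WithTop ℂ) (k : ℕ), 1 ≤ k →
      (∀ z, AttainsAt f a z → (k : ℤ) ≤ valueDivisor f a z) →
      ∃ K : ℝ, ∀ r, 1 ≤ r → reducedCounting f a r ≤ (1 / (k : ℝ)) * characteristic f ⊤ r + K := by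
    intro a k hk hmult
    obtain ⟨K, hK0, hK⟩ := exists_logCounting_le hf a
    refine ⟨K, fun r hr => ?_⟩
    have hle : k • reduceOnce (valueDivisor f a) ≤ valueDivisor f a := by
      refine le_def.2 fun z => ?_
      rw [coe_nsmul, Pi.smul_apply, reduceOnce_valueDivisor_apply hf hn, nsmul_eq_mul]
      split_ifs with h
      · rw [mul_one]
        exact hmult z h
      · rw [mul_zero]
        exact le_def.1 (valueDivisor_nonneg f a) z
    have h1 := Function.locallyFinsuppWithin.logCounting_le hle hr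
    rw [map_nsmul, Pi.smul_apply, nsmul_eq_mul, ← logCounting_eq_valueDivisor] at h1
    have hk' : (1 : ℝ) ≤ k := by exact_mod_cast hk
    have h2 : reducedCounting f a r ≤ (characteristic f ⊤ r + K) / k := by
      rw [le_div_iff₀ (by linarith), mul_comm]
      exact h1.trans (hK r hr)
    refine h2.trans ?_
    rw [add_div, div_eq_inv_mul, one_div]
    exact add_le_add le_rfl (div_le_self hK0 hk')
  have hfin : ∀ a ∈ A, ∀ z, AttainsAt f a z → (m a : ℤ) ≤ valueDivisor f a z := by
    intro a ha z hz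
    have h := hA a ha z hz
    obtain ⟨n, hn'⟩ := WithTop.ne_top_iff_exists.1 (hn a z)
    rw [← hn', WithTop.coe_le_coe] at h
    rw [valueDivisor_coe, posPart_apply,
      divisor_apply (meromorphic_sub_const hf a).meromorphicOn (mem_univ z), ← hn',
      WithTop.untop₀_coe, int_posPart_eq]
    exact h.trans (le_max_left _ _)
  have hpole : ∀ z, AttainsAt f ⊤ z → (M : ℤ) ≤ valueDivisor f ⊤ z := by
    intro z hz
    have h := hP z ((tendsto_cobounded_iff_meromorphicOrderAt_neg (hf z)).1 hz)
    obtain ⟨n, hn'⟩ := WithTop.ne_top_iff_exists.1 (hn.order_ne_top z)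
    rw [← hn', WithTop.coe_le_coe] at h
    rw [valueDivisor_top, negPart_apply, divisor_apply hf.meromorphicOn (mem_univ z), ← hn',
      WithTop.untop₀_coe, int_negPart_eq]
    exact le_trans (by linarith) (le_max_left _ _)
  obtain ⟨K₀, hK₀⟩ := key ⊤ M hM hpole
  choose! K hK using fun a (ha : a ∈ A) => key a (m a) (hm a ha) (hfin a ha)
  obtain ⟨ε, hε⟩ : ∃ ε : ℝ, ε = ∑ a ∈ A, (1 - 1 / (m a : ℝ)) + (1 - 1 / (M : ℝ)) - 2 := ⟨_, rfl⟩
  suffices h : ε ≤ 0 by linarith
  refine SmallError.nonpos (((second_main hf hn A).add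
    (smallError_const f (K₀ + ∑ a ∈ A, K a))).mono fun r hr => ?_) (tendsto_characteristic hf hn)
  have h1 := hK₀ r hr
  have h2 : ∑ a ∈ A, reducedCounting f a r ≤
      ∑ a ∈ A, ((1 / (m a : ℝ)) * characteristic f ⊤ r + K a) :=
    Finset.sum_le_sum fun a ha => hK a ha r hr
  rw [Finset.sum_add_distrib, ← Finset.sum_mul] at h2
  rw [hε, Pi.add_apply, Finset.sum_sub_distrib, Finset.sum_const, nsmul_eq_mul, mul_one]
  linarith

/-- The map which sends `∞` to `0` and `a` to `1 / (a - c)`. -/
def moveTop (c : ℂ) : WithTop ℂ → ℂ := WithTop.recTopCoe 0 fun a => (a - c)⁻¹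

theorem attainsAt_move (hf : Meromorphic f) (hn : Nonconst f) {c : ℂ} {a : WithTop ℂ}
    (hac : a ≠ c) (z : ℂ) :
    AttainsAt (fun w => (f w - c)⁻¹) (moveTop c a) z ↔ AttainsAt f a z := by
  induction a with
  | top =>
    rw [attainsAt_top, show moveTop c ⊤ = 0 from rfl, attainsAt_coe]
    constructor
    · intro h
      have h1 := (tendsto_zero_iff_meromorphicOrderAt_pos
        ((meromorphic_sub_const hf c).inv z)).1 h
      rw [meromorphicOrderAt_inv] at h1
      have h2 : Tendsto (fun w => f w - c) (𝓝[≠] z) (Bornology.cobounded ℂ) := by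
        refine tendsto_cobounded_of_meromorphicOrderAt_neg ?_
        lift meromorphicOrderAt (fun w => f w - c) z to ℤ using hn c z with n
        rw [← WithTop.LinearOrderedAddCommGroup.coe_neg] at h1
        norm_cast at h1 ⊢
        omega
      have h3 := (tendsto_sub_const_cobounded (-c)).comp h2
      simpa [Function.comp_def] using h3
    · intro h
      exact tendsto_inv₀_cobounded.comp ((tendsto_sub_const_cobounded c).comp h)
  | coe b =>
    have hb : b - c ≠ 0 := sub_ne_zero.2 fun h => hac (by rw [h])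
    rw [show moveTop c (b : WithTop ℂ) = (b - c)⁻¹ from rfl, attainsAt_coe, attainsAt_coe]
    constructor
    · intro h
      have h1 := (h.inv₀ (inv_ne_zero hb)).add_const c
      simpa using h1
    · exact fun h => (h.sub_const c).inv₀ hb

theorem reduceOnce_valueDivisor_congr (hf : Meromorphic f) (hn : Nonconst f) (hg : Meromorphic g)
    (hm : Nonconst g) {a : WithTop ℂ} (h : ∀ z, AttainsAt f a z ↔ AttainsAt g a z) :
    reduceOnce (valueDivisor f a) = reduceOnce (valueDivisor g a) := by
  classical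
  refine Function.locallyFinsuppWithin.ext fun z => ?_
  rw [reduceOnce_valueDivisor_apply hf hn, reduceOnce_valueDivisor_apply hg hm]
  simp only [h z]

/-- Five finite values. -/
theorem five_value_finite (hf : Meromorphic f) (hn : Nonconst f) (hg : Meromorphic g)
    (hm : Nonconst g) (A : Finset ℂ) (hA : A.card = 5)
    (hshare : ∀ a ∈ A, ∀ z, AttainsAt f a z ↔ AttainsAt g a z) : f =ᶠ[codiscrete ℂ] g := by
  classical
  by_contra hne
  obtain ⟨h, hh⟩ : ∃ h : ℂ → ℂ, h = fun w => f w - g w := ⟨_, rfl⟩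
  have hhm : Meromorphic h := hh ▸ fun z => (hf z).sub (hg z)
  have hgn : Meromorphic (-g) := fun z => (hg z).neg
  have hh0 : ¬h =ᶠ[codiscrete ℂ] fun _ => 0 := fun h' => hne (h'.mono fun w hw => by
    rw [hh] at hw
    exact sub_eq_zero.1 hw)
  have hord := order_ne_top_of_not_eventuallyEq_zero hhm hh0
  have hdiv : ∑ a ∈ A, reduceOnce (valueDivisor f a) ≤ valueDivisor h ((0 : ℂ) : WithTop ℂ) := by
    refine le_def.2 fun z => ?_
    rw [coe_sum, Finset.sum_apply]
    by_cases hex : ∃ b ∈ A, AttainsAt f b z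
    · obtain ⟨b, hb, hbz⟩ := hex
      rw [Finset.sum_eq_single b (fun a _ hab => by
          rw [reduceOnce_valueDivisor_apply hf hn,
            if_neg fun h' : AttainsAt f a z => hab (h'.unique hbz)])
        (fun h' => absurd hb h'), reduceOnce_valueDivisor_apply hf hn, if_pos hbz]
      have hlim : Tendsto h (𝓝[≠] z) (𝓝 0) := by
        have h1 := (attainsAt_coe.1 hbz).sub (attainsAt_coe.1 ((hshare b hb z).1 hbz))
        rw [sub_self] at h1
        exact hh ▸ h1
      have hpos := (tendsto_zero_iff_meromorphicOrderAt_pos (hhm z)).1 hlim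
      rw [valueDivisor_coe, posPart_apply,
        divisor_apply (meromorphic_sub_const hhm 0).meromorphicOn (mem_univ z)]
      simp only [sub_zero]
      obtain ⟨n, hn'⟩ := WithTop.ne_top_iff_exists.1 (hord z)
      rw [← hn'] at hpos ⊢
      rw [WithTop.untop₀_coe, int_posPart_eq]
      exact le_trans (by exact_mod_cast hpos) (le_max_left n 0)
    · push Not at hex
      rw [Finset.sum_eq_zero fun a ha => by
        rw [reduceOnce_valueDivisor_apply hf hn, if_neg (hex a ha)]]
      exact le_def.1 (valueDivisor_nonneg h _) z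
  obtain ⟨K, hK0, hK⟩ := exists_logCounting_le hhm ((0 : ℂ) : WithTop ℂ)
  have hsum : ∀ r, 1 ≤ r → ∑ a ∈ A, reducedCounting f a r ≤
      characteristic f ⊤ r + characteristic g ⊤ r + (Real.log 2 + K) := by
    intro r hr
    have h1 := Function.locallyFinsuppWithin.logCounting_le hdiv hr
    rw [map_sum, Finset.sum_apply, ← logCounting_eq_valueDivisor] at h1
    have h2 : characteristic h ⊤ r ≤
        characteristic f ⊤ r + characteristic g ⊤ r + Real.log 2 := by
      have h3 := characteristic_add_top_le hf hgn hr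
      rw [show f + -g = h by rw [hh]; funext w; simp [sub_eq_add_neg]] at h3
      have h4 : characteristic (-g) ⊤ r = characteristic g ⊤ r := by
        rw [characteristic, characteristic, Pi.add_apply, Pi.add_apply]
        congr 1
        · simp [proximity_top]
        · rw [logCounting_top, logCounting_top]
          rw [show divisor (-g) univ = divisor g univ from
            Function.locallyFinsuppWithin.ext fun z => by
              rw [divisor_apply hgn.meromorphicOn (mem_univ z),
                divisor_apply hg.meromorphicOn (mem_univ z), ← meromorphicOrderAt_neg]]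
      linarith
    have h5 := hK r hr
    have h6 : (∑ a ∈ A, reducedCounting f a r) ≤
        ValueDistribution.logCounting h ((0 : ℂ) : WithTop ℂ) r := h1
    linarith
  have hsum' : ∀ r, 1 ≤ r → ∑ a ∈ A, reducedCounting g a r ≤
      characteristic f ⊤ r + characteristic g ⊤ r + (Real.log 2 + K) := fun r hr => by
    refine le_trans (le_of_eq (Finset.sum_congr rfl fun a ha => ?_)) (hsum r hr)
    rw [reducedCounting, reducedCounting,
      reduceOnce_valueDivisor_congr hf hn hg hm (hshare a ha)]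
  obtain ⟨C₁, hC₁, E₁, hE₁, hS₁⟩ := second_main hf hn A
  obtain ⟨C₂, hC₂, E₂, hE₂, hS₂⟩ := second_main hg hm A
  have hTf := tendsto_characteristic hf hn
  have hboth : Tendsto (fun r => characteristic f ⊤ r + characteristic g ⊤ r) atTop atTop :=
    tendsto_atTop_add_right_of_le' atTop 0 hTf (by
      filter_upwards [eventually_ge_atTop 1] with r hr using characteristic_nonneg hr)
  obtain ⟨r, hrE, hr1, hr⟩ := ((hE₁.union hE₂).frequently_notMem.and_eventually
    ((eventually_ge_atTop (1 : ℝ)).and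
      (hboth.eventually (eventually_log_lt (ε := 1) (C := C₁ + C₂ + 2 * (Real.log 2 + K))
        one_pos)))).exists
  have hf0 : 0 ≤ characteristic f ⊤ r := characteristic_nonneg hr1
  have hg0 : 0 ≤ characteristic g ⊤ r := characteristic_nonneg hr1
  have e1 := hS₁ r hr1 fun h' => hrE (Or.inl h')
  have e2 := hS₂ r hr1 fun h' => hrE (Or.inr h')
  have e3 := hsum r hr1
  have e4 := hsum' r hr1
  have e5 : reducedCounting f ⊤ r ≤ characteristic f ⊤ r :=
    (reducedCounting_le f ⊤ hr1).trans (le_add_of_nonneg_left (proximity_nonneg r))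
  have e6 : reducedCounting g ⊤ r ≤ characteristic g ⊤ r :=
    (reducedCounting_le g ⊤ hr1).trans (le_add_of_nonneg_left (proximity_nonneg r))
  rw [hA] at e1 e2
  have hl : ∀ x, 0 ≤ x → x ≤ characteristic f ⊤ r + characteristic g ⊤ r →
      Real.log (1 + x) ≤ Real.log (1 + (characteristic f ⊤ r + characteristic g ⊤ r)) :=
    fun x hx hxy => Real.log_le_log (by linarith) (by linarith)
  have l1 := mul_le_mul_of_nonneg_left (hl _ hf0 (by linarith)) hC₁
  have l2 := mul_le_mul_of_nonneg_left (hl _ hg0 (by linarith)) hC₂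
  have l3 : 0 ≤ (Real.log 2 + K) * Real.log (1 + (characteristic f ⊤ r + characteristic g ⊤ r)) :=
    mul_nonneg (add_nonneg (Real.log_nonneg one_le_two) hK0)
      (Real.log_nonneg (by linarith))
  push_cast at e1 e2
  linarith

/-- **The five value theorem.** -/
theorem five_value_sphere (hf : Meromorphic f) (hn : Nonconst f) (hg : Meromorphic g)
    (hm : Nonconst g) (A : Finset (WithTop ℂ)) (hA : A.card = 5)
    (hshare : ∀ a ∈ A, ∀ z, AttainsAt f a z ↔ AttainsAt g a z) : f =ᶠ[codiscrete ℂ] g := by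
  classical
  obtain ⟨c, hc⟩ := Infinite.exists_notMem_finset (A.image WithTop.untop₀)
  have hac : ∀ a ∈ A, a ≠ (c : WithTop ℂ) := fun a ha h =>
    hc (Finset.mem_image.2 ⟨a, ha, by rw [h, WithTop.untop₀_coe]⟩)
  have hmove : ∀ {u : ℂ → ℂ}, Meromorphic u → Nonconst u →
      Meromorphic (fun w => (u w - c)⁻¹) ∧ Nonconst fun w => (u w - c)⁻¹ := fun {u} hu hnu => by
    have hm' : Meromorphic fun w => (u w - c)⁻¹ := fun z => (meromorphic_sub_const hu c z).inv
    refine ⟨hm', nonconst_of_not_const hm' fun b hb => hnu.not_const (c + b⁻¹) ?_⟩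
    filter_upwards [hb] with w hw
    rw [← hw, inv_inv]
    ring
  obtain ⟨hF, hF'⟩ := hmove hf hn
  obtain ⟨hG, hG'⟩ := hmove hg hm
  have hinj : InjOn (moveTop c) A := by
    intro a ha b hb hab
    have ha' := hac a ha
    have hb' := hac b hb
    induction a with
    | top =>
      induction b with
      | top => rfl
      | coe y => exact absurd hab.symm (inv_ne_zero (sub_ne_zero.2 fun h => hb' (by rw [h])))
    | coe x =>
      induction b with
      | top => exact absurd hab (inv_ne_zero (sub_ne_zero.2 fun h => ha' (by rw [h])))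
      | coe y => rw [sub_left_inj.1 (inv_injective hab)]
  have h := five_value_finite hF hF' hG hG' (A.image (moveTop c))
    (by rw [Finset.card_image_of_injOn hinj, hA]) fun b hb z => by
      obtain ⟨a, ha, rfl⟩ := Finset.mem_image.1 hb
      rw [attainsAt_move hf hn (hac a ha), attainsAt_move hg hm (hac a ha)]
      exact hshare a ha z
  filter_upwards [h] with w hw
  simpa using inv_injective hw

/-- Three values omitted in the sphere force a constant. -/
theorem picard_sphere (hf : Meromorphic f) (hn : Nonconst f) (A : Finset (WithTop ℂ))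
    (hA : ∀ a ∈ A, ∀ z, ¬AttainsAt f a z) : A.card ≤ 2 := by
  classical
  obtain ⟨ε, hε⟩ : ∃ ε : ℝ, ε = (A.card : ℝ) - 2 := ⟨_, rfl⟩
  have hz : ∀ a ∈ A, reduceOnce (valueDivisor f a) = 0 := fun a ha =>
    Function.locallyFinsuppWithin.ext fun z => by
      rw [reduceOnce_valueDivisor_apply hf hn, if_neg (hA a ha z)]
      rfl
  have h : ε ≤ 0 := by
    refine SmallError.nonpos ((second_main_sphere hf hn A).mono fun r _ => ?_)
      (tendsto_characteristic hf hn)
    have hzero : ∑ a ∈ A, reducedCounting f a r = 0 := Finset.sum_eq_zero fun a ha => by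
      rw [reducedCounting, hz a ha, map_zero, Pi.zero_apply]
    rw [hzero, sub_zero, hε]
  have h' : (A.card : ℝ) ≤ 2 := by linarith
  exact_mod_cast h'

/-- **Fermat's equation, general exponents.** -/
theorem const_of_pow_add_pow (hf : Meromorphic f) (hg : Meromorphic g) {m k M : ℕ}
    (hm : 1 ≤ m) (hk : 1 ≤ k) (hM : 1 ≤ M)
    (hexp : 1 / (m : ℝ) + 1 / (k : ℝ) + 1 / (M : ℝ) < 1)
    (hM' : ∀ z, ∀ n l : ℤ, n < 0 → meromorphicOrderAt f z = n → (k : ℤ) * l = m * n →
      (M : ℤ) ≤ -(m * n))
    (heq : (fun z => f z ^ m + g z ^ k) =ᶠ[codiscrete ℂ] fun _ => 1) :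
    ∃ c : ℂ, f =ᶠ[codiscrete ℂ] fun _ => c := by
  classical
  by_contra hcon
  push Not at hcon
  have hn := nonconst_of_not_const hf hcon
  have hT := tendsto_characteristic hf hn
  have hF : Meromorphic (f ^ m) := fun z => (hf z).pow m
  have hFn : Nonconst (f ^ m) := nonconst_of_not_const hF fun c hc => by
    obtain ⟨r, hr0, hr⟩ := ((eventually_gt_atTop (0 : ℝ)).and
      (hT.eventually_gt_atTop (Real.posLog ‖c‖))).exists
    have h := characteristic_congr_codiscrete (a := (⊤ : WithTop ℂ)) hc hr0.ne'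
    rw [characteristic_pow_top hf, Pi.smul_apply, nsmul_eq_mul] at h
    have hc' : characteristic (fun _ : ℂ => c) ⊤ r = Real.posLog ‖c‖ := by
      simp [characteristic]
    rw [hc'] at h
    have h0 : 0 ≤ Real.posLog ‖c‖ := Real.posLog_nonneg
    have h1 : (1 : ℝ) ≤ m := by exact_mod_cast hm
    nlinarith
  have hpow : ∀ z, meromorphicOrderAt (f ^ m) z = (m : WithTop ℤ) * meromorphicOrderAt f z :=
    fun z => meromorphicOrderAt_pow (hf z)
  have hsub : ∀ z, meromorphicOrderAt (fun w => (f ^ m) w - 1) z =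
      (k : WithTop ℤ) * meromorphicOrderAt g z := fun z => by
    rw [← meromorphicOrderAt_pow (hg z), meromorphicOrderAt_neg (f := g ^ k)]
    refine meromorphicOrderAt_congr ?_
    filter_upwards [eventuallyEq_nhdsNE_of_codiscrete heq z] with w hw
    simp only [Pi.pow_apply, Pi.neg_apply]
    linear_combination hw
  have hgz : ∀ z, meromorphicOrderAt g z ≠ ⊤ := fun z h => by
    refine hFn 1 z ?_
    rw [hsub, h, WithTop.mul_top]
    exact_mod_cast (by omega : k ≠ 0)
  have h2 := sum_one_sub_inv_le_two hF hFn {0, 1} (fun a => if a = 0 then m else k)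
    (fun a _ => by split_ifs <;> assumption) hM (fun a ha z hz => ?_) (fun z hz => ?_)
  · rw [Finset.sum_pair zero_ne_one, if_pos rfl, if_neg one_ne_zero] at h2
    linarith
  · rcases Finset.mem_insert.1 ha with rfl | ha
    · have hpos := (attainsAt_coe_iff_order hF).1 (attainsAt_coe.2 hz)
      rw [if_pos rfl]
      simp only [sub_zero] at hpos ⊢
      obtain ⟨n, hn'⟩ := WithTop.ne_top_iff_exists.1 (hn.order_ne_top z)
      rw [hpow, ← hn'] at hpos ⊢
      norm_cast at hpos ⊢
      nlinarith [show 1 ≤ n by nlinarith]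
    · rw [Finset.mem_singleton.1 ha] at hz ⊢
      have hpos := (attainsAt_coe_iff_order hF).1 (attainsAt_coe.2 hz)
      rw [if_neg one_ne_zero]
      obtain ⟨l, hl⟩ := WithTop.ne_top_iff_exists.1 (hgz z)
      rw [hsub, ← hl] at hpos ⊢
      norm_cast at hpos ⊢
      nlinarith [show 1 ≤ l by nlinarith]
  · obtain ⟨n, hn'⟩ := WithTop.ne_top_iff_exists.1 (hn.order_ne_top z)
    obtain ⟨l, hl⟩ := WithTop.ne_top_iff_exists.1 (hgz z)
    have hneg := hz
    rw [hpow, ← hn'] at hneg ⊢
    norm_cast at hneg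
    have hn0 : n < 0 := by nlinarith
    have hs : meromorphicOrderAt (fun w => (f ^ m) w - 1) z = meromorphicOrderAt (f ^ m) z := by
      have he : (fun w => (f ^ m) w - 1) = f ^ m + fun _ => (-1 : ℂ) := by
        funext w
        simp [sub_eq_add_neg]
      rw [he]
      refine meromorphicOrderAt_add_eq_left_of_lt (MeromorphicAt.const _ _) ?_
      rw [meromorphicOrderAt_const, if_neg (by norm_num)]
      exact hz
    rw [hsub, hpow, ← hl, ← hn'] at hs
    norm_cast at hs ⊢
    linarith [hM' z n l hn0 hn'.symm hs]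

/-- `f ^ m + g ^ k = 1` in meromorphic functions. -/
theorem const_of_pow_add_pow_meromorphic (hf : Meromorphic f) (hg : Meromorphic g) {m k : ℕ}
    (hm : 1 ≤ m) (hk : 1 ≤ k)
    (hexp : 1 / (m : ℝ) + 1 / (k : ℝ) + 1 / (m.lcm k : ℝ) < 1)
    (heq : (fun z => f z ^ m + g z ^ k) =ᶠ[codiscrete ℂ] fun _ => 1) :
    ∃ c : ℂ, f =ᶠ[codiscrete ℂ] fun _ => c := by
  refine const_of_pow_add_pow hf hg hm hk (Nat.lcm_pos hm hk) hexp (fun z n l hn _ hkl => ?_) heq
  have hm' : (1 : ℤ) ≤ m := by exact_mod_cast hm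
  have h1 : (m : ℤ) ∣ -((m : ℤ) * n) := (dvd_mul_right _ _).neg_right
  have h2 : (k : ℤ) ∣ -((m : ℤ) * n) := hkl ▸ (dvd_mul_right _ _).neg_right
  have hpos : 0 < -((m : ℤ) * n) := by nlinarith
  have h3 : ((m.lcm k : ℕ) : ℤ) ∣ -((m : ℤ) * n) := by
    obtain ⟨N, hN⟩ : ∃ N : ℕ, -((m : ℤ) * n) = N := ⟨_, (Int.toNat_of_nonneg hpos.le).symm⟩
    rw [hN] at h1 h2 ⊢
    exact Int.natCast_dvd_natCast.2
      (Nat.lcm_dvd (Int.natCast_dvd_natCast.1 h1) (Int.natCast_dvd_natCast.1 h2))
  exact Int.le_of_dvd hpos h3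

/-- `f ^ m + g ^ k = 1` in entire functions. -/
theorem const_of_pow_add_pow_entire (hf : Differentiable ℂ f) (hg : Differentiable ℂ g) {m k : ℕ}
    (hm : 1 ≤ m) (hk : 1 ≤ k) (hexp : 1 / (m : ℝ) + 1 / (k : ℝ) < 1)
    (heq : ∀ z, f z ^ m + g z ^ k = 1) : ∃ c : ℂ, ∀ z, f z = c := by
  obtain ⟨M, hM⟩ := exists_nat_gt (1 / (1 - (1 / (m : ℝ) + 1 / (k : ℝ))))
  have hgap : 0 < 1 - (1 / (m : ℝ) + 1 / (k : ℝ)) := by linarith
  have hM0 : (0 : ℝ) < M := lt_trans (by positivity) hM
  have hexp' : 1 / (m : ℝ) + 1 / (k : ℝ) + 1 / (M : ℝ) < 1 := by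
    have h : 1 / (M : ℝ) < 1 - (1 / (m : ℝ) + 1 / (k : ℝ)) := by
      rw [one_div_lt hM0 hgap]
      exact hM
    linarith
  have hmero : ∀ {u : ℂ → ℂ}, Differentiable ℂ u → Meromorphic u := fun {u} hu z =>
    (hu.analyticAt z).meromorphicAt
  obtain ⟨c, hc⟩ := const_of_pow_add_pow (hmero hf) (hmero hg) hm hk
    (M := M) (Nat.one_le_iff_ne_zero.2 fun h => by simp [h] at hM0) hexp'
    (fun z n l hn hn' _ => absurd (hn' ▸ (hf.analyticAt z).meromorphicOrderAt_nonneg)
      (not_le.2 (by exact_mod_cast hn)))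
    (Eventually.of_forall heq)
  exact ⟨c, eq_const_of_continuous hf.continuous hc⟩

end FA.Nevanlinna

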