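import Fermat.Agent.Nevanlinna.LogDeriv

/-!
# Values, counting without multiplicity, and small errors

`valueDivisor f a` records the multiplicities with which `f` takes the value `a` of the sphere and
`reducedCounting f a` is the counting function `N̄ (r, a)` in which each of them is counted once.
-/

set_option autoImplicit false

noncomputable section

namespace FA.Nevanlinna

open Complex Filter Function MeasureTheory Metric Set MeromorphicOn
open ValueDistribution Function.locallyFinsuppWithin
open scoped Real Topology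

variable {f g : ℂ → ℂ}

/-- `f` is nowhere locally constant. -/
def Nonconst (f : ℂ → ℂ) : Prop := ∀ c z : ℂ, meromorphicOrderAt (fun w => f w - c) z ≠ ⊤

theorem meromorphic_sub_const (hf : Meromorphic f) (c : ℂ) : Meromorphic fun w => f w - c :=
  fun z => (hf z).sub (MeromorphicAt.const c z)

theorem Nonconst.order_ne_top (h : Nonconst f) (z : ℂ) : meromorphicOrderAt f z ≠ ⊤ := by
  simpa using h 0 z

/-- A meromorphic function is nowhere locally constant unless it is constant. -/
theorem nonconst_of_not_const (hf : Meromorphic f)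
    (h : ∀ c : ℂ, ¬f =ᶠ[codiscrete ℂ] fun _ => c) : Nonconst f := by
  intro c z hz
  refine h c ?_
  have hall : ∀ x, meromorphicOrderAt (fun w => f w - c) x = ⊤ := by
    intro x
    by_contra hx
    exact (meromorphic_sub_const hf c).exists_meromorphicOrderAt_ne_top_iff_forall.1 ⟨x, hx⟩ z hz
  show {w | f w = c} ∈ codiscreteWithin (univ : Set ℂ)
  rw [mem_codiscreteWithin_iff_forall_mem_nhdsNE]
  intro x _
  filter_upwards [meromorphicOrderAt_eq_top_iff.1 (hall x)] with w hw
  exact Or.inl (sub_eq_zero.1 hw)

/-- The divisor of the points where `f` takes the value `a`. -/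
def valueDivisor (f : ℂ → ℂ) : WithTop ℂ → locallyFinsupp ℂ ℤ :=
  WithTop.recTopCoe (divisor f univ)⁻ fun a => (divisor (fun w => f w - a) univ)⁺

theorem valueDivisor_top (f : ℂ → ℂ) : valueDivisor f ⊤ = (divisor f univ)⁻ := rfl

theorem valueDivisor_coe (f : ℂ → ℂ) (a : ℂ) :
    valueDivisor f a = (divisor (fun w => f w - a) univ)⁺ := rfl

theorem valueDivisor_nonneg (f : ℂ → ℂ) (a : WithTop ℂ) : 0 ≤ valueDivisor f a := by
  induction a with
  | top => exact negPart_nonneg _
  | coe a => exact posPart_nonneg _

theorem logCounting_eq_valueDivisor (f : ℂ → ℂ) (a : WithTop ℂ) :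
    ValueDistribution.logCounting f a =
      Function.locallyFinsuppWithin.logCounting (valueDivisor f a) := by
  induction a with
  | top => exact logCounting_top
  | coe a => exact logCounting_coe

/-- Each point counted once. -/
def reduceOnce (D : locallyFinsupp ℂ ℤ) : locallyFinsupp ℂ ℤ where
  toFun z := min (D z) 1
  supportWithinDomain' := subset_univ _
  supportLocallyFiniteWithinDomain' z hz := by
    obtain ⟨t, ht, hfin⟩ := D.supportLocallyFiniteWithinDomain z hz
    refine ⟨t, ht, hfin.subset (inter_subset_inter_right _ fun w hw h0 => hw ?_)⟩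
    show min (D w) 1 = 0
    rw [h0]
    rfl

theorem reduceOnce_apply (D : locallyFinsupp ℂ ℤ) (z : ℂ) : reduceOnce D z = min (D z) 1 := rfl

theorem reduceOnce_le (D : locallyFinsupp ℂ ℤ) : reduceOnce D ≤ D :=
  le_def.2 fun _ => min_le_left _ _

theorem reduceOnce_nonneg {D : locallyFinsupp ℂ ℤ} (hD : 0 ≤ D) : 0 ≤ reduceOnce D :=
  le_def.2 fun z => le_min (le_def.1 hD z) zero_le_one

/-- `N̄ (r, a)`: the counting function which ignores multiplicities. -/
def reducedCounting (f : ℂ → ℂ) (a : WithTop ℂ) : ℝ → ℝ :=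
  Function.locallyFinsuppWithin.logCounting (reduceOnce (valueDivisor f a))

theorem reducedCounting_nonneg (f : ℂ → ℂ) (a : WithTop ℂ) {r : ℝ} (hr : 1 ≤ r) :
    0 ≤ reducedCounting f a r :=
  Function.locallyFinsuppWithin.logCounting_nonneg
    (reduceOnce_nonneg (valueDivisor_nonneg f a)) hr

theorem reducedCounting_le (f : ℂ → ℂ) (a : WithTop ℂ) {r : ℝ} (hr : 1 ≤ r) :
    reducedCounting f a r ≤ ValueDistribution.logCounting f a r := by
  rw [logCounting_eq_valueDivisor]
  exact Function.locallyFinsuppWithin.logCounting_le (reduceOnce_le _) hr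

theorem characteristic_shift_le (hf : Meromorphic f) (a : ℂ) (r : ℝ) :
    characteristic (fun w => f w - a) ⊤ r ≤
        characteristic f ⊤ r + (Real.posLog ‖a‖ + Real.log 2) ∧
      characteristic f ⊤ r ≤
        characteristic (fun w => f w - a) ⊤ r + (Real.posLog ‖a‖ + Real.log 2) := by
  have h := abs_le.1 (abs_characteristic_sub_characteristic_shift_le (a₀ := a) (r := r) hf)
  exact ⟨by linarith [h.1], by linarith [h.2]⟩

/-- **The first main theorem** as an upper bound for the counting functions. -/
theorem exists_logCounting_le (hf : Meromorphic f) (a : WithTop ℂ) :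
    ∃ K : ℝ, 0 ≤ K ∧ ∀ r : ℝ, 1 ≤ r →
      ValueDistribution.logCounting f a r ≤ characteristic f ⊤ r + K := by
  induction a with
  | top =>
    exact ⟨0, le_rfl, fun r _ => by
      rw [add_zero]
      exact le_add_of_nonneg_left (proximity_nonneg r)⟩
  | coe a =>
    refine ⟨invConst (fun w => f w - a) + (Real.posLog ‖a‖ + Real.log 2),
      add_nonneg (invConst_nonneg _) (add_nonneg Real.posLog_nonneg (Real.log_nonneg one_le_two)),
      fun r _ => ?_⟩
    rw [logCounting_coe_eq_logCounting_sub_const_zero,
      show f - (fun _ => a) = fun w => f w - a from rfl]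
    have h1 := characteristic_zero_le (meromorphic_sub_const hf a) r
    have h2 := (characteristic_shift_le hf a r).1
    have h3 : 0 ≤ proximity (fun w => f w - a) 0 r := proximity_nonneg r
    linarith

/-- `f` takes the value `a` of the sphere at `z`. -/
def AttainsAt (f : ℂ → ℂ) (a : WithTop ℂ) (z : ℂ) : Prop :=
  Tendsto f (𝓝[≠] z) (WithTop.recTopCoe (Bornology.cobounded ℂ) (fun c => 𝓝 c) a)

theorem attainsAt_top {z : ℂ} :
    AttainsAt f ⊤ z ↔ Tendsto f (𝓝[≠] z) (Bornology.cobounded ℂ) := Iff.rfl

theorem attainsAt_coe {a z : ℂ} : AttainsAt f a z ↔ Tendsto f (𝓝[≠] z) (𝓝 a) := Iff.rfl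

theorem attainsAt_coe_iff_order (hf : Meromorphic f) {a z : ℂ} :
    AttainsAt f a z ↔ 0 < meromorphicOrderAt (fun w => f w - a) z := by
  rw [attainsAt_coe, ← tendsto_zero_iff_meromorphicOrderAt_pos (meromorphic_sub_const hf a z),
    tendsto_sub_nhds_zero_iff]

theorem attainsAt_iff (hf : Meromorphic f) (hn : Nonconst f) {a : WithTop ℂ} {z : ℂ} :
    AttainsAt f a z ↔ 0 < valueDivisor f a z := by
  induction a with
  | top =>
    rw [attainsAt_top, tendsto_cobounded_iff_meromorphicOrderAt_neg (hf z), valueDivisor_top,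
      negPart_apply, divisor_apply hf.meromorphicOn (mem_univ z), negPart_pos_iff]
    lift meromorphicOrderAt f z to ℤ using hn.order_ne_top z with n
    simp
  | coe a =>
    rw [attainsAt_coe_iff_order hf, valueDivisor_coe, posPart_apply,
      divisor_apply (meromorphic_sub_const hf a).meromorphicOn (mem_univ z), posPart_pos_iff]
    lift meromorphicOrderAt (fun w => f w - a) z to ℤ using hn a z with n
    simp

/-- A point takes at most one finite value. -/
theorem AttainsAt.unique {a b z : ℂ} (ha : AttainsAt f a z) (hb : AttainsAt f b z) : a = b :=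
  tendsto_nhds_unique ha hb

theorem reduceOnce_valueDivisor_apply (hf : Meromorphic f) (hn : Nonconst f) (a : WithTop ℂ)
    (z : ℂ) [Decidable (AttainsAt f a z)] :
    reduceOnce (valueDivisor f a) z = if AttainsAt f a z then 1 else 0 := by
  rw [reduceOnce_apply]
  have h0 : 0 ≤ valueDivisor f a z := le_def.1 (valueDivisor_nonneg f a) z
  split_ifs with h
  · exact min_eq_right ((attainsAt_iff hf hn).1 h)
  · have : ¬0 < valueDivisor f a z := fun h' => h ((attainsAt_iff hf hn).2 h')
    omega

/-- The characteristic of a non-constant function tends to infinity. -/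
theorem tendsto_characteristic (hf : Meromorphic f) (hn : Nonconst f) :
    Tendsto (characteristic f ⊤) atTop atTop := by
  obtain ⟨z₀, hz₀⟩ : ∃ z₀, AnalyticAt ℂ f z₀ := by
    have h : ∀ᶠ w in codiscreteWithin (univ : Set ℂ), AnalyticAt ℂ f w :=
      hf.meromorphicOn.analyticAt_mem_codiscreteWithin
    have h' := mem_codiscreteWithin_iff_forall_mem_nhdsNE.1 h 0 (mem_univ 0)
    simp only [compl_univ, union_empty] at h'
    exact (Filter.Eventually.exists (f := 𝓝[≠] (0 : ℂ)) h')
  obtain ⟨a, ha⟩ : ∃ a, a = f z₀ := ⟨_, rfl⟩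
  have hat : AttainsAt f a z₀ :=
    attainsAt_coe.2 (ha ▸ hz₀.continuousAt.tendsto.mono_left nhdsWithin_le_nhds)
  have hpos := (attainsAt_iff hf hn).1 hat
  obtain ⟨K, -, hK⟩ := exists_logCounting_le hf (a : WithTop ℂ)
  obtain ⟨R, hR⟩ : ∃ R, R = max 1 ‖z₀‖ := ⟨_, rfl⟩
  have hR1 : 1 ≤ R := hR ▸ le_max_left _ _
  refine tendsto_atTop_mono' atTop (f₁ := fun r => Real.log (r / R) - K) ?_ ?_
  · filter_upwards [eventually_ge_atTop R] with r hr
    have h1 := sum_mul_log_le_logCounting (valueDivisor_nonneg f (a : WithTop ℂ)) hR1 hr {z₀}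
      (fun x hx => by rw [Finset.mem_singleton.1 hx, hR]; exact le_max_right _ _)
    rw [Finset.sum_singleton, ← logCounting_eq_valueDivisor] at h1
    have h2 : Real.log (r / R) ≤ (valueDivisor f (a : WithTop ℂ) z₀ : ℝ) * Real.log (r / R) :=
      le_mul_of_one_le_left (Real.log_nonneg (by rw [le_div_iff₀ (by positivity)]; linarith))
        (by exact_mod_cast hpos)
    linarith [hK r (hR1.trans hr)]
  · exact (tendsto_atTop_add_const_right _ (-K) (Real.tendsto_log_atTop.comp
      (tendsto_id.atTop_div_const (by positivity))))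

theorem SmallError.mono {S S' : ℝ → ℝ} (h : SmallError f S)
    (hle : ∀ r, 1 ≤ r → S' r ≤ S r) : SmallError f S' := by
  obtain ⟨C, hC, E, hE, hS⟩ := h
  exact ⟨C, hC, E, hE, fun r hr hrE => (hle r hr).trans (hS r hr hrE)⟩

theorem smallError_const (f : ℂ → ℂ) (c : ℝ) : SmallError f fun _ => c := by
  refine ⟨|c|, abs_nonneg _, ∅, logFinite_empty, fun r hr _ => ?_⟩
  refine (le_abs_self c).trans (le_mul_of_one_le_right (abs_nonneg c) ?_)
  exact le_add_of_nonneg_right (Real.log_nonneg
    (le_add_of_nonneg_right (characteristic_nonneg hr)))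

theorem SmallError.add {S S' : ℝ → ℝ} (h : SmallError f S) (h' : SmallError f S') :
    SmallError f (S + S') := by
  obtain ⟨C, hC, E, hE, hS⟩ := h
  obtain ⟨C', hC', E', hE', hS'⟩ := h'
  refine ⟨C + C', add_nonneg hC hC', E ∪ E', hE.union hE', fun r hr hrE => ?_⟩
  rw [Pi.add_apply, add_mul]
  exact add_le_add (hS r hr fun h => hrE (Or.inl h)) (hS' r hr fun h => hrE (Or.inr h))

theorem SmallError.sum {ι : Type*} (s : Finset ι) {S : ι → ℝ → ℝ}
    (h : ∀ i ∈ s, SmallError f (S i)) : SmallError f fun r => ∑ i ∈ s, S i r := by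
  classical
  induction s using Finset.induction_on with
  | empty => simpa using smallError_const f 0
  | @insert i s hi ih =>
    refine ((h i (Finset.mem_insert_self i s)).add
      (ih fun j hj => h j (Finset.mem_insert_of_mem hj))).mono fun r _ => ?_
    rw [Finset.sum_insert hi, Pi.add_apply]

theorem SmallError.of_le {S : ℝ → ℝ} {K : ℝ} (hK : 0 ≤ K) (h : SmallError g S)
    (hT : ∀ r, 1 ≤ r → characteristic g ⊤ r ≤ characteristic f ⊤ r + K) : SmallError f S := by
  obtain ⟨C, hC, E, hE, hS⟩ := h
  have hl := Real.log_nonneg (le_add_of_nonneg_right hK : (1 : ℝ) ≤ 1 + K)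
  refine ⟨C * (1 + Real.log (1 + K)), by positivity, E, hE, fun r hr hrE => ?_⟩
  refine (hS r hr hrE).trans ?_
  have h1 : 0 ≤ characteristic g ⊤ r := characteristic_nonneg hr
  have h2 : 0 ≤ characteristic f ⊤ r := characteristic_nonneg hr
  have h3 : Real.log (1 + characteristic g ⊤ r) ≤
      Real.log (1 + K) + Real.log (1 + characteristic f ⊤ r) := by
    rw [← Real.log_mul (by positivity) (by positivity)]
    exact Real.log_le_log (by positivity) (by nlinarith [hT r hr])
  have h4 : 0 ≤ Real.log (1 + characteristic f ⊤ r) :=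
    Real.log_nonneg (le_add_of_nonneg_right h2)
  rw [mul_assoc]
  refine mul_le_mul_of_nonneg_left ?_ hC
  nlinarith

/-- A multiple `ε T` of a function tending to infinity is `O (1 + log (1 + T))` only if `ε ≤ 0`. -/
theorem eventually_log_lt {ε C : ℝ} (hε : 0 < ε) :
    ∀ᶠ x : ℝ in atTop, C * (1 + Real.log (1 + x)) < ε * x := by
  have h1 : Tendsto (fun x : ℝ => C * (1 + Real.log (1 + x)) / x) atTop (𝓝 0) := by
    have hlog : Tendsto (fun x : ℝ => Real.log (1 + x) / x) atTop (𝓝 0) := by
      have h := (Real.isLittleO_log_id_atTop.comp_tendsto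
        (tendsto_atTop_add_const_left atTop 1 tendsto_id)).tendsto_div_nhds_zero
      have h2 : Tendsto (fun x : ℝ => (1 + x) / x) atTop (𝓝 1) := by
        have h3 : Tendsto (fun x : ℝ => x⁻¹ + 1) atTop (𝓝 (0 + 1)) :=
          tendsto_inv_atTop_zero.add_const 1
        rw [zero_add] at h3
        refine h3.congr' ?_
        filter_upwards [eventually_gt_atTop 0] with x hx
        field_simp
      have hm := h.mul h2
      rw [zero_mul] at hm
      refine hm.congr' ?_
      filter_upwards [eventually_gt_atTop 0] with x hx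
      simp only [Function.comp_apply, id_eq]
      field_simp
    have h4 := ((tendsto_inv_atTop_zero (𝕜 := ℝ)).add hlog).const_mul C
    rw [add_zero, mul_zero] at h4
    refine h4.congr' ?_
    filter_upwards [eventually_gt_atTop 0] with x hx
    field_simp
  filter_upwards [h1.eventually (gt_mem_nhds hε), eventually_gt_atTop 0] with x hx hx0
  rwa [div_lt_iff₀ hx0] at hx

/-- A small error cannot be a positive multiple of the characteristic. -/
theorem SmallError.nonpos {ε : ℝ} (h : SmallError f fun r => ε * characteristic f ⊤ r)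
    (hT : Tendsto (characteristic f ⊤) atTop atTop) : ε ≤ 0 := by
  by_contra hε
  push Not at hε
  obtain ⟨C, -, E, hE, hS⟩ := h
  obtain ⟨r, hrE, hr1, hr⟩ := (hE.frequently_notMem.and_eventually
    ((eventually_ge_atTop (1 : ℝ)).and (hT.eventually (eventually_log_lt (C := C) hε)))).exists
  exact absurd (hS r hr1 hrE) (not_le.2 hr)

end FA.Nevanlinna
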