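import Mathlib

/-!
# Borel's growth lemma

Outside a set of finite logarithmic measure a monotone function `u ≥ 1` satisfies
`u (r (1 + u (r) ^ (-2))) ≤ 2 u (r)`.
-/

set_option autoImplicit false

noncomputable section

namespace FA.Nevanlinna

open Filter MeasureTheory Set
open scoped ENNReal

/-- `E ∩ [1, ∞)` has finite logarithmic measure. -/
def LogFinite (E : Set ℝ) : Prop := volume (Real.log '' (E ∩ Ici 1)) < ⊤

theorem LogFinite.union {E F : Set ℝ} (hE : LogFinite E) (hF : LogFinite F) :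
    LogFinite (E ∪ F) := by
  rw [LogFinite, union_inter_distrib_right, image_union]
  exact (measure_union_le _ _).trans_lt (ENNReal.add_lt_top.2 ⟨hE, hF⟩)

theorem logFinite_empty : LogFinite ∅ := by simp [LogFinite]

/-- A set of finite logarithmic measure misses arbitrarily large numbers. -/
theorem LogFinite.frequently_notMem {E : Set ℝ} (hE : LogFinite E) :
    ∃ᶠ r in atTop, r ∉ E := by
  rw [frequently_atTop]
  intro b
  by_contra h
  push Not at h
  obtain ⟨c, hc⟩ : ∃ c, c = max b 1 := ⟨_, rfl⟩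
  refine (lt_irrefl (⊤ : ℝ≥0∞))
    ((le_trans ?_ (measure_mono (?_ : Ici (Real.log c) ⊆ _))).trans_lt hE)
  · rw [Real.volume_Ici]
  · intro x hx
    have hce : c ≤ Real.exp x := by
      rw [← Real.exp_log (show 0 < c from lt_of_lt_of_le one_pos (hc ▸ le_max_right b 1))]
      exact Real.exp_le_exp.2 hx
    refine ⟨Real.exp x, ⟨h _ ?_, ?_⟩, Real.log_exp x⟩
    · exact (hc ▸ le_max_left b 1).trans hce
    · exact (hc ▸ le_max_right b 1).trans hce

/-- The exceptional set of the growth lemma. -/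
def growthSet (u : ℝ → ℝ) : Set ℝ := {r | 1 ≤ r ∧ 2 * u r < u (r * (1 + 1 / u r ^ 2))}

/-- **Borel's lemma.** -/
theorem logFinite_growthSet {u : ℝ → ℝ} (hu : MonotoneOn u (Ici 1))
    (h1 : ∀ r, 1 ≤ r → 1 ≤ u r) : LogFinite (growthSet u) := by
  obtain ⟨Lev, hLev⟩ : ∃ Lev : ℕ → Set ℝ,
      Lev = fun k => {r ∈ growthSet u | (2 : ℝ) ^ k ≤ u r ∧ u r < 2 ^ (k + 1)} := ⟨_, rfl⟩
  have hcover : Real.log '' (growthSet u ∩ Ici 1) ⊆ ⋃ k, Real.log '' Lev k := by
    rintro _ ⟨r, ⟨hr, hr1⟩, rfl⟩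
    obtain ⟨k, hk1, hk2⟩ := exists_nat_pow_near (h1 r hr1) one_lt_two
    exact mem_iUnion.2 ⟨k, r, hLev ▸ ⟨hr, hk1, hk2⟩, rfl⟩
  have hgap : ∀ k : ℕ, ∀ r ∈ Lev k, ∀ r' ∈ Lev k, r ≤ r' →
      Real.log r' - Real.log r ≤ (1 / 4) ^ k := by
    intro k r hr r' hr' hle
    rw [hLev] at hr hr'
    obtain ⟨⟨hr1, hjump⟩, hk1, -⟩ := hr
    obtain ⟨⟨hr1', -⟩, -, hk2'⟩ := hr'
    have hu0 : 0 < u r := lt_of_lt_of_le one_pos (h1 r hr1)
    have hlt : r' < r * (1 + 1 / u r ^ 2) := by
      by_contra h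
      push Not at h
      have hmid : (1 : ℝ) ≤ r * (1 + 1 / u r ^ 2) :=
        hr1.trans (le_mul_of_one_le_right (by linarith) (by
          have : 0 ≤ 1 / u r ^ 2 := by positivity
          linarith))
      have h3 := hu (mem_Ici.2 hmid) (mem_Ici.2 hr1') h
      rw [pow_succ] at hk2'
      linarith
    have hr0 : 0 < r := lt_of_lt_of_le one_pos hr1
    rw [← Real.log_div (by linarith) hr0.ne']
    calc Real.log (r' / r) ≤ r' / r - 1 := Real.log_le_sub_one_of_pos (by positivity)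
      _ ≤ 1 / u r ^ 2 := by
        rw [sub_le_iff_le_add, div_le_iff₀ hr0]
        linarith
      _ ≤ 1 / ((2 : ℝ) ^ k) ^ 2 := by gcongr
      _ = (1 / 4) ^ k := by rw [← pow_mul, mul_comm k, pow_mul, one_div_pow]; norm_num
  refine (measure_mono hcover).trans_lt ((measure_iUnion_le _).trans_lt ?_)
  refine lt_of_le_of_lt (ENNReal.tsum_le_tsum (g := fun k : ℕ => ENNReal.ofReal ((1 / 4) ^ k))
    fun k => (Real.volume_le_diam _).trans (Metric.ediam_le ?_)) ?_
  · rintro _ ⟨r, hr, rfl⟩ _ ⟨r', hr', rfl⟩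
    rw [edist_dist, Real.dist_eq]
    refine ENNReal.ofReal_le_ofReal ?_
    rcases le_total r r' with h | h
    · rw [abs_sub_comm, abs_of_nonneg]
      · exact hgap k r hr r' hr' h
      · rw [hLev] at hr
        exact sub_nonneg.2 (Real.log_le_log (by linarith [hr.1.1]) h)
    · rw [abs_of_nonneg]
      · exact hgap k r' hr' r hr h
      · rw [hLev] at hr'
        exact sub_nonneg.2 (Real.log_le_log (by linarith [hr'.1.1]) h)
  · rw [← ENNReal.ofReal_tsum_of_nonneg (fun k => by positivity)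
      (summable_geometric_of_lt_one (by norm_num) (by norm_num))]
    exact ENNReal.ofReal_lt_top

end FA.Nevanlinna
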