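import Mathlib

/-!
# Analytic and integral estimates for the lemma on the logarithmic derivative

The derivative of a holomorphic function is bounded by the mean of the absolute value of its real
part on a larger circle, and the mean of `‖z - a‖⁻¹ ^ (1 / 2)` on the circle of radius `r` is at
most a constant times `r ^ (-1 / 2)`, uniformly in `a`.
-/

set_option autoImplicit false

noncomputable section

namespace FA.Nevanlinna

open Complex Filter MeasureTheory Metric Set
open scoped Real Topology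

/-- The norm of a mean is at most the mean of the norm. -/
theorem norm_circleAverage_le {f : ℂ → ℂ} {c : ℂ} {R : ℝ} :
    ‖Real.circleAverage f c R‖ ≤ Real.circleAverage (fun z => ‖f z‖) c R := by
  rw [Real.circleAverage_def, Real.circleAverage_def, norm_smul, smul_eq_mul,
    Real.norm_of_nonneg (inv_nonneg.2 Real.two_pi_pos.le)]
  exact mul_le_mul_of_nonneg_left
    (intervalIntegral.norm_integral_le_integral_norm Real.two_pi_pos.le)
    (inv_nonneg.2 Real.two_pi_pos.le)

/-- A differentiable function whose real part vanishes on an open set has derivative zero there. -/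
theorem deriv_eq_zero_of_re_eq_zero {H : ℂ → ℂ} {z H' : ℂ} (hH : HasDerivAt H H' z)
    (h0 : ∀ᶠ w in 𝓝 z, (H w).re = 0) : H' = 0 := by
  have h1 := reCLM.hasFDerivAt.comp z (hH.hasFDerivAt.restrictScalars ℝ)
  have h2 : HasFDerivAt (reCLM ∘ H) (0 : ℂ →L[ℝ] ℝ) z :=
    (hasFDerivAt_const (0 : ℝ) z).congr_of_eventuallyEq h0
  have h3 := h1.unique h2
  refine Complex.ext ?_ ?_
  · simpa using DFunLike.congr_fun h3 1
  · simpa using DFunLike.congr_fun h3 I

/-- **The derivative is controlled by the real part on a larger circle.** -/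
theorem norm_deriv_le_circleAverage {G : ℂ → ℂ} {r R : ℝ} (hG : DiffContOnCl ℂ G (ball 0 R))
    (hrR : r < R) {z : ℂ} (hz : ‖z‖ ≤ r) :
    ‖deriv G z‖ ≤ 2 * R / (R - r) ^ 2 * Real.circleAverage (fun w => |(G w).re|) 0 R := by
  have hR : 0 < R := (norm_nonneg z).trans_lt (hz.trans_lt hrR)
  have hzR : z ∈ ball (0 : ℂ) R := mem_ball_zero_iff.2 (hz.trans_lt hrR)
  have hcont : ContinuousOn G (sphere 0 R) :=
    hG.2.mono (sphere_subset_closedBall.trans_eq (closure_ball 0 hR.ne').symm)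
  obtain ⟨u, hu⟩ : ∃ u : ℂ → ℝ, u = fun w => (G w).re := ⟨_, rfl⟩
  have huC : ContinuousOn u (sphere 0 R) := hu ▸ Complex.continuous_re.comp_continuousOn hcont
  have hui : CircleIntegrable u 0 R := huC.circleIntegrable hR.le
  have huci : CircleIntegrable (fun w => (u w : ℂ)) 0 R :=
    (Complex.continuous_ofReal.comp_continuousOn huC).circleIntegrable hR.le
  obtain ⟨F, hF⟩ : ∃ F : ℂ → ℂ, F = fun w =>
      Real.circleAverage (fun ζ => herglotzRieszKernel 0 w ζ • (u ζ : ℂ)) 0 R := ⟨_, rfl⟩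
  have hFre : ∀ w ∈ ball (0 : ℂ) R, (F w).re = (G w).re := by
    intro w hw
    have hker : ContinuousOn (fun ζ => (Complex.re ∘ herglotzRieszKernel 0 w) ζ) (sphere 0 R) :=
      Complex.continuous_re.comp_continuousOn
        (abs_of_pos hR ▸ continuousOn_herglotzRieszKernel_sphere hw)
    rw [hF]
    simp only
    rw [re_circleAverage_herglotzRieszKernel_smul hui hw,
      ← congrArg Complex.re (hG.circleAverage_re_herglotzRieszKernel_smul hw)]
    have hint : CircleIntegrable ((Complex.re ∘ herglotzRieszKernel 0 w) • G) 0 R :=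
      (hker.smul hcont).circleIntegrable hR.le
    rw [show (Real.circleAverage ((Complex.re ∘ herglotzRieszKernel 0 w) • G) 0 R).re =
      reCLM (Real.circleAverage ((Complex.re ∘ herglotzRieszKernel 0 w) • G) 0 R) from rfl,
      ← reCLM.circleAverage_comp_comm hint]
    refine Real.circleAverage_congr_sphere fun ζ _ => ?_
    simp [hu, Complex.real_smul]
  have hF' : HasDerivAt F
      (Real.circleAverage (fun ζ => (2 * ζ / (ζ - z) ^ 2) • (u ζ : ℂ)) 0 R) z :=
    hF ▸ hasDerivAt_circleAverage_herglotzRieszKernel_smul huci hzR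
  have hG' : HasDerivAt G (deriv G z) z :=
    (hG.differentiableAt isOpen_ball hzR).hasDerivAt
  have heq := deriv_eq_zero_of_re_eq_zero (hF'.sub hG') (by
    filter_upwards [isOpen_ball.mem_nhds hzR] with w hw
    simp [hFre w hw])
  rw [← sub_eq_zero.1 heq]
  refine norm_circleAverage_le.trans ?_
  rw [← smul_eq_mul (2 * R / (R - r) ^ 2), ← Real.circleAverage_fun_smul]
  refine Real.circleAverage_mono ?_ ?_ fun ζ hζ => ?_
  · refine (ContinuousOn.norm
      (?_ : ContinuousOn (fun ζ => (2 * ζ / (ζ - z) ^ 2) • (u ζ : ℂ))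
        (sphere 0 R))).circleIntegrable hR.le
    refine ContinuousOn.smul (?_ : ContinuousOn (fun ζ => 2 * ζ / (ζ - z) ^ 2) (sphere 0 R))
      (Complex.continuous_ofReal.comp_continuousOn huC)
    refine ContinuousOn.div (by fun_prop) (by fun_prop) fun ζ hζ => pow_ne_zero 2 ?_
    rw [sub_ne_zero]
    rintro rfl
    rw [mem_sphere_zero_iff_norm] at hζ
    linarith
  · exact ((ContinuousOn.abs (hu ▸ huC : ContinuousOn (fun w => (G w).re) (sphere 0 R))).const_smul
      (2 * R / (R - r) ^ 2)).circleIntegrable hR.le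
  · rw [abs_of_pos hR, mem_sphere_zero_iff_norm] at hζ
    simp only [norm_smul, norm_div, norm_mul, norm_pow, Complex.norm_real, Real.norm_eq_abs,
      Complex.norm_ofNat, smul_eq_mul, hu, hζ]
    refine mul_le_mul_of_nonneg_right ?_ (abs_nonneg _)
    gcongr
    calc R - r ≤ ‖ζ‖ - ‖z‖ := by linarith
      _ ≤ ‖ζ - z‖ := norm_sub_norm_le ζ z

/-- A holomorphic function without zeros on a closed disc has a logarithm. -/
theorem exists_log_of_ne_zero {h : ℂ → ℂ} {R : ℝ} (hR : 0 < R)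
    (ha : AnalyticOnNhd ℂ h (closedBall 0 R)) (hne : ∀ z ∈ closedBall (0 : ℂ) R, h z ≠ 0) :
    ∃ G : ℂ → ℂ, DiffContOnCl ℂ G (ball 0 R) ∧
      (∀ z ∈ ball (0 : ℂ) R, deriv G z = logDeriv h z) ∧
      ∀ z ∈ closedBall (0 : ℂ) R, (G z).re = Real.log ‖h z‖ := by
  obtain ⟨U, hU⟩ : ∃ U : Set ℂ, U = {z | AnalyticAt ℂ h z ∧ h z ≠ 0} := ⟨_, rfl⟩
  have hUo : IsOpen U := by
    rw [hU, isOpen_iff_mem_nhds]
    rintro z ⟨h1, h2⟩
    filter_upwards [h1.eventually_analyticAt,
      h1.continuousAt.eventually_ne h2] with w hw1 hw2 using ⟨hw1, hw2⟩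
  have hsub : closedBall (0 : ℂ) R ⊆ U := fun z hz => hU ▸ ⟨ha z hz, hne z hz⟩
  obtain ⟨d, hd, hdU⟩ := (isCompact_closedBall (0 : ℂ) R).exists_cthickening_subset_open hUo hsub
  rw [cthickening_closedBall hd.le hR.le] at hdU
  have hb : ∀ z ∈ ball (0 : ℂ) (d + R), AnalyticAt ℂ h z ∧ h z ≠ 0 := fun z hz => by
    have hzU := hdU (ball_subset_closedBall hz)
    rw [hU] at hzU
    exact hzU
  have hld : DifferentiableOn ℂ (logDeriv h) (ball 0 (d + R)) := fun z hz =>
    (((hb z hz).1.deriv.div (hb z hz).1 (hb z hz).2).differentiableAt).differentiableWithinAt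
  obtain ⟨G, hG⟩ := hld.isExactOn_ball
  have h0 : (0 : ℂ) ∈ ball (0 : ℂ) (d + R) := mem_ball_self (by linarith)
  obtain ⟨E, hE⟩ : ∃ E : ℂ → ℂ, E = fun z => cexp (-G z) * h z := ⟨_, rfl⟩
  have hE' : ∀ z ∈ ball (0 : ℂ) (d + R), HasDerivAt E 0 z := by
    intro z hz
    have h1 := ((hG z hz).neg.cexp).mul (hb z hz).1.differentiableAt.hasDerivAt
    have h2 : cexp (-G z) * -logDeriv h z * h z + cexp (-G z) * deriv h z = 0 := by
      rw [logDeriv_apply]
      field_simp [(hb z hz).2]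
      ring
    simp only [Pi.neg_apply] at h1
    rw [h2] at h1
    exact hE ▸ h1
  have hconst : ∀ z ∈ ball (0 : ℂ) (d + R), E z = E 0 := fun z hz =>
    IsOpen.is_const_of_deriv_eq_zero isOpen_ball (convex_ball _ _).isPreconnected
      (fun w hw => (hE' w hw).differentiableAt.differentiableWithinAt)
      (fun w hw => (hE' w hw).deriv) hz h0
  have hE0 : E 0 ≠ 0 := by
    rw [hE]
    exact mul_ne_zero (exp_ne_zero _) (hb 0 h0).2
  have hsub' : closedBall (0 : ℂ) R ⊆ ball 0 (d + R) := closedBall_subset_ball (by linarith)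
  refine ⟨fun z => G z + log (E 0), ?_, fun z hz => ?_, fun z hz => ?_⟩
  · refine DifferentiableOn.diffContOnCl fun z hz => ?_
    rw [closure_ball 0 hR.ne'] at hz
    exact ((hG z (hsub' hz)).differentiableAt.add_const _).differentiableWithinAt
  · rw [deriv_add_const]
    exact (hG z (hsub' (ball_subset_closedBall hz))).deriv
  · have hE1 := hconst z (hsub' hz)
    have hh : h z = cexp (G z + log (E 0)) := by
      rw [exp_add, exp_log hE0, ← hE1, hE]
      simp only [← mul_assoc, ← exp_add, add_neg_cancel, exp_zero, one_mul]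
    rw [hh, norm_exp, Real.log_exp]

/-- `|x| ^ (-1 / 2)`. -/
def invSqrt (x : ℝ) : ℝ := √(|x|⁻¹)

theorem intervalIntegrable_invSqrt (a b : ℝ) : IntervalIntegrable invSqrt volume a b := by
  suffices h : ∀ c : ℝ, IntervalIntegrable invSqrt volume 0 c from (h a).symm.trans (h b)
  intro c
  have h0 : ∀ d : ℝ, 0 ≤ d → IntervalIntegrable invSqrt volume 0 d := by
    intro d hd
    refine (intervalIntegral.intervalIntegrable_rpow' (r := -(1 / 2)) (by norm_num)).congr ?_
    intro x hx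
    rw [uIoc_of_le hd] at hx
    simp only [invSqrt]
    rw [abs_of_pos hx.1, Real.sqrt_inv, Real.rpow_neg hx.1.le, Real.sqrt_eq_rpow]
  rcases le_total 0 c with hc | hc
  · exact h0 c hc
  · have h := (h0 (-c) (neg_nonneg.2 hc)).comp_sub_left 0
    simp only [zero_sub, neg_zero, neg_neg] at h
    exact h.congr fun x _ => by simp [invSqrt]

/-- The majorant of `|sin| ^ (-1 / 2)` on a period. -/
def sinMaj (θ : ℝ) : ℝ := invSqrt θ + invSqrt (θ - π) + invSqrt (θ - 2 * π)

theorem invSqrt_nonneg (x : ℝ) : 0 ≤ invSqrt x := Real.sqrt_nonneg _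

theorem intervalIntegrable_sinMaj : IntervalIntegrable sinMaj volume 0 (2 * π) := by
  have h : ∀ c : ℝ, IntervalIntegrable (fun θ => invSqrt (θ - c)) volume 0 (2 * π) := fun c => by
    simpa using (intervalIntegrable_invSqrt (0 - c) (2 * π - c)).comp_sub_right c
  exact ((intervalIntegrable_invSqrt _ _).add (h π)).add (h (2 * π))

theorem invSqrt_sin_le {θ : ℝ} (h0 : 0 < θ) (h1 : θ < 2 * π) (hπ : θ ≠ π) :
    invSqrt (Real.sin θ) ≤ √(π / 2) * sinMaj θ := by
  have hkey : ∃ x, (x = θ ∨ x = θ - π ∨ x = θ - 2 * π) ∧ x ≠ 0 ∧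
      2 / π * |x| ≤ |Real.sin θ| := by
    have hp := Real.pi_pos
    rcases le_total θ (π / 2) with hA | hA
    · exact ⟨θ, .inl rfl, h0.ne', by
        rw [abs_of_pos h0]
        exact (Real.mul_le_sin h0.le hA).trans (le_abs_self _)⟩
    rcases le_total θ (3 * π / 2) with hB | hB
    · refine ⟨θ - π, .inr (.inl rfl), sub_ne_zero.2 hπ, ?_⟩
      have hs : |Real.sin θ| = |Real.sin (θ - π)| := by rw [Real.sin_sub_pi, abs_neg]
      rw [hs]
      exact Real.mul_abs_le_abs_sin (abs_le.2 ⟨by linarith, by linarith⟩)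
    · refine ⟨θ - 2 * π, .inr (.inr rfl), by linarith, ?_⟩
      have hs : |Real.sin θ| = |Real.sin (θ - 2 * π)| := by rw [Real.sin_sub_two_pi]
      rw [hs]
      exact Real.mul_abs_le_abs_sin (abs_le.2 ⟨by linarith, by linarith⟩)
  obtain ⟨x, hx, hx0, hle⟩ := hkey
  have hx' : invSqrt x ≤ sinMaj θ := by
    rw [sinMaj]
    have := invSqrt_nonneg θ
    have := invSqrt_nonneg (θ - π)
    have := invSqrt_nonneg (θ - 2 * π)
    rcases hx with rfl | rfl | rfl <;> linarith
  refine le_trans ?_ (mul_le_mul_of_nonneg_left hx' (Real.sqrt_nonneg _))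
  rw [invSqrt, invSqrt, ← Real.sqrt_mul (by positivity)]
  refine Real.sqrt_le_sqrt ?_
  have hx1 : 0 < |x| := abs_pos.2 hx0
  calc |Real.sin θ|⁻¹ ≤ (2 / π * |x|)⁻¹ := inv_anti₀ (by positivity) hle
    _ = π / 2 * |x|⁻¹ := by rw [mul_inv, inv_div]

/-- The constant of the singular mean. -/
def singConst : ℝ := (2 * π)⁻¹ * (√(π / 2) * ∫ θ in 0..2 * π, sinMaj θ)

theorem singConst_nonneg : 0 ≤ singConst := by
  refine mul_nonneg (inv_nonneg.2 Real.two_pi_pos.le) (mul_nonneg (Real.sqrt_nonneg _) ?_)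
  refine intervalIntegral.integral_nonneg Real.two_pi_pos.le fun θ _ => ?_
  exact add_nonneg (add_nonneg (invSqrt_nonneg _) (invSqrt_nonneg _)) (invSqrt_nonneg _)

theorem mul_abs_sin_le {a : ℂ} {r : ℝ} (hr : 0 < r) (θ : ℝ) :
    r * |Real.sin θ| ≤ ‖circleMap 0 r (θ + a.arg) - a‖ := by
  have e : circleMap 0 r (θ + a.arg) - a =
      cexp (a.arg * I) * (circleMap 0 r θ - ‖a‖) := by
    conv_lhs => arg 2; rw [← norm_mul_exp_arg_mul_I a]
    simp only [circleMap, zero_add]
    push_cast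
    rw [add_mul, exp_add]
    ring
  rw [e, norm_mul, norm_exp_ofReal_mul_I, one_mul]
  refine le_trans (le_of_eq ?_) (Complex.abs_im_le_norm _)
  rw [sub_im, ofReal_im, sub_zero, circleMap, zero_add, im_ofReal_mul, exp_ofReal_mul_I_im,
    abs_mul, abs_of_pos hr]

theorem circleIntegrable_singular {r : ℝ} (hr : 0 < r) (a : ℂ) :
    IntervalIntegrable (fun θ => √(‖circleMap 0 r (θ + a.arg) - a‖⁻¹)) volume 0 (2 * π) ∧
      CircleIntegrable (fun z => √(‖z - a‖⁻¹)) 0 r ∧
      Real.circleAverage (fun z => √(‖z - a‖⁻¹)) 0 r ≤ singConst * √(r⁻¹) := by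
  obtain ⟨Y, hY⟩ : ∃ Y : ℝ → ℝ, Y = fun θ => √(‖circleMap 0 r (θ + a.arg) - a‖⁻¹) := ⟨_, rfl⟩
  have hle : ∀ᵐ θ ∂volume.restrict (Icc 0 (2 * π)),
      Y θ ≤ √(r⁻¹) * (√(π / 2) * sinMaj θ) := by
    rw [ae_restrict_iff' measurableSet_Icc]
    filter_upwards [Measure.ae_ne volume 0, Measure.ae_ne volume π,
      Measure.ae_ne volume (2 * π)] with θ h0 hπ h2 hmem
    have hlo : 0 < θ := lt_of_le_of_ne hmem.1 (Ne.symm h0)
    have hhi : θ < 2 * π := lt_of_le_of_ne hmem.2 h2
    refine le_trans ?_ (mul_le_mul_of_nonneg_left (invSqrt_sin_le hlo hhi hπ) (Real.sqrt_nonneg _))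
    have hs : Real.sin θ ≠ 0 := by
      intro hs
      obtain ⟨n, hn⟩ := Real.sin_eq_zero_iff.1 hs
      have hn1 : (0 : ℤ) < n := by
        have : (0 : ℝ) < n := by nlinarith [Real.pi_pos]
        exact_mod_cast this
      have hn2 : n < 2 := by
        have : (n : ℝ) < 2 := by nlinarith [Real.pi_pos]
        exact_mod_cast this
      have : n = 1 := by omega
      rw [this, Int.cast_one, one_mul] at hn
      exact hπ hn.symm
    rw [hY, invSqrt, ← Real.sqrt_mul (inv_nonneg.2 hr.le), ← mul_inv]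
    exact Real.sqrt_le_sqrt (inv_anti₀ (mul_pos hr (abs_pos.2 hs)) (mul_abs_sin_le hr θ))
  have hmaj : IntervalIntegrable (fun θ => √(r⁻¹) * (√(π / 2) * sinMaj θ)) volume 0 (2 * π) :=
    (intervalIntegrable_sinMaj.const_mul _).const_mul _
  have hYi : IntervalIntegrable Y volume 0 (2 * π) := by
    refine hmaj.mono_fun' (by rw [hY]; exact Measurable.aestronglyMeasurable (by fun_prop)) ?_
    rw [uIoc_of_le Real.two_pi_pos.le]
    refine (hle.filter_mono (ae_mono (Measure.restrict_mono Ioc_subset_Icc_self le_rfl))).mono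
      fun θ hθ => ?_
    show ‖Y θ‖ ≤ _
    rwa [Real.norm_of_nonneg (by rw [hY]; exact Real.sqrt_nonneg _)]
  refine ⟨hY ▸ hYi, ?_, ?_⟩
  · have hper : Function.Periodic (fun θ => √(‖circleMap 0 r θ - a‖⁻¹)) (2 * π) := fun θ => by
      simp [periodic_circleMap 0 r θ]
    have h := hYi.comp_sub_right a.arg
    rw [hY] at h
    simp only [sub_add_cancel, zero_add] at h
    show IntervalIntegrable (fun θ => √(‖circleMap 0 r θ - a‖⁻¹)) volume 0 (2 * π)
    exact hper.intervalIntegrable Real.two_pi_pos.ne' (t := a.arg) (by rwa [add_comm]) _ _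
  · rw [Real.circleAverage_eq_integral_add a.arg, smul_eq_mul, singConst]
    calc (2 * π)⁻¹ * ∫ θ in 0..2 * π, √(‖circleMap 0 r (θ + a.arg) - a‖⁻¹)
        ≤ (2 * π)⁻¹ * ∫ θ in 0..2 * π, √(r⁻¹) * (√(π / 2) * sinMaj θ) :=
          mul_le_mul_of_nonneg_left (intervalIntegral.integral_mono_ae_restrict
            Real.two_pi_pos.le (hY ▸ hYi) hmaj (hY ▸ hle)) (inv_nonneg.2 Real.two_pi_pos.le)
      _ = _ := by
        rw [intervalIntegral.integral_const_mul, intervalIntegral.integral_const_mul]; ring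

end FA.Nevanlinna
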