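import Fermat.Agent.Nevanlinna.Kernel
import Fermat.Agent.Nevanlinna.Growth

/-!
# The lemma on the logarithmic derivative

For a meromorphic `f` on the plane the proximity function of `f' / f` is `O (1 + log (1 + T (r)))`
outside a set of finite logarithmic measure (Nevanlinna; the proof follows Gol'dberg and Grinstein).
-/

set_option autoImplicit false

noncomputable section

namespace FA.Nevanlinna

open Complex Filter Function MeasureTheory Metric Set MeromorphicOn
open ValueDistribution Function.locallyFinsuppWithin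
open scoped Real Topology ComplexConjugate

variable {f : ℂ → ℂ}

/-- Weighted mass in a smaller disc is controlled by the logarithmic counting function. -/
theorem sum_mul_log_le_logCounting {E : locallyFinsupp ℂ ℤ} (hE : 0 ≤ E) {R ρ : ℝ} (hR : 1 ≤ R)
    (hρ : R ≤ ρ) (s : Finset ℂ) (hs : ∀ a ∈ s, ‖a‖ ≤ R) :
    (∑ a ∈ s, (E a : ℝ)) * Real.log (ρ / R) ≤ Function.locallyFinsuppWithin.logCounting E ρ := by
  classical
  have hρ0 : 0 < ρ := by linarith
  have hpos : ∀ z, (0 : ℝ) ≤ E z := fun z => Int.cast_nonneg (hE z)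
  have hlog0 : 0 ≤ Real.log ρ := Real.log_nonneg (hR.trans hρ)
  obtain ⟨t, ht⟩ : ∃ t : Finset ℂ,
      t = ((toClosedBall ρ E).finiteSupport (isCompact_closedBall 0 |ρ|)).toFinset ∪ s := ⟨_, rfl⟩
  simp only [Function.locallyFinsuppWithin.logCounting, AddMonoidHom.coe_mk, ZeroHom.coe_mk]
  rw [finsum_eq_sum_of_support_subset _ (s := t) (by
    intro z hz
    rw [ht, Finset.coe_union]
    exact Or.inl (by simpa using left_ne_zero_of_mul hz))]
  have hterm : ∀ z ∈ t, 0 ≤ ((toClosedBall ρ E) z : ℝ) * Real.log (ρ * ‖z‖⁻¹) := by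
    intro z _
    by_cases hz : z ∈ closedBall (0 : ℂ) |ρ|
    · rw [toClosedBall_eval_within _ hz]
      rcases eq_or_ne z 0 with rfl | hz0
      · simp
      refine mul_nonneg (hpos z) (Real.log_nonneg ?_)
      rw [le_mul_inv_iff₀ (norm_pos_iff.2 hz0), one_mul]
      simpa [abs_of_pos hρ0] using hz
    · simp [apply_eq_zero_of_notMem _ hz]
  have hsub : s ⊆ t := ht ▸ Finset.subset_union_right
  refine le_trans ?_ (add_le_add_left (Finset.sum_le_sum_of_subset_of_nonneg hsub
    fun z hz _ => hterm z hz) _)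
  rw [Finset.sum_mul]
  calc ∑ a ∈ s, (E a : ℝ) * Real.log (ρ / R)
      ≤ ∑ a ∈ s, (((toClosedBall ρ E) a : ℝ) * Real.log (ρ * ‖a‖⁻¹) +
          if a = 0 then (E 0 : ℝ) * Real.log ρ else 0) := Finset.sum_le_sum fun a ha => by
        have hmem : a ∈ closedBall (0 : ℂ) |ρ| := by
          simpa [abs_of_pos hρ0] using (hs a ha).trans hρ
        rw [toClosedBall_eval_within _ hmem]
        rcases eq_or_ne a 0 with rfl | ha0
        · simp only [norm_zero, inv_zero, mul_zero, Real.log_zero, zero_add, if_true]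
          refine mul_le_mul_of_nonneg_left (Real.log_le_log (by positivity) ?_) (hpos 0)
          exact div_le_self hρ0.le hR
        · rw [if_neg ha0, add_zero, ← div_eq_mul_inv]
          refine mul_le_mul_of_nonneg_left (Real.log_le_log (by positivity) ?_) (hpos a)
          exact div_le_div_of_nonneg_left hρ0.le (norm_pos_iff.2 ha0) (hs a ha)
    _ ≤ _ := by
        rw [Finset.sum_add_distrib, Finset.sum_ite_eq']
        gcongr
        split_ifs
        · exact le_rfl
        · exact mul_nonneg (hpos 0) hlog0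

/-- The comparison constant of the first main theorem. -/
def invConst (f : ℂ → ℂ) : ℝ :=
  max |Real.log ‖f 0‖| |Real.log ‖meromorphicTrailingCoeffAt f 0‖|

theorem invConst_nonneg (f : ℂ → ℂ) : 0 ≤ invConst f := (abs_nonneg _).trans (le_max_left _ _)

theorem characteristic_zero_le (hf : Meromorphic f) (r : ℝ) :
    proximity f 0 r + ValueDistribution.logCounting f 0 r ≤ characteristic f ⊤ r + invConst f := by
  have h := abs_le.1 (characteristic_sub_characteristic_inv_le (R := r) hf)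
  have e : characteristic f⁻¹ ⊤ r = proximity f 0 r + ValueDistribution.logCounting f 0 r := by
    rw [characteristic, Pi.add_apply, proximity_inv, ValueDistribution.logCounting_inv]
  rw [← e]
  unfold invConst
  linarith [h.1]

/-- The mass of the divisor in a disc. -/
theorem sum_abs_divisor_le (hf : Meromorphic f) {R ρ : ℝ} (hR : 1 ≤ R) (hρ : R ≤ ρ)
    (s : Finset ℂ) (hs : ∀ a ∈ s, ‖a‖ ≤ R) :
    (∑ a ∈ s, |(divisor f univ a : ℝ)|) * ((ρ - R) / ρ) ≤
      2 * characteristic f ⊤ ρ + invConst f := by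
  have hρ0 : 0 < ρ := by linarith
  have hsplit : ∑ a ∈ s, |(divisor f univ a : ℝ)| =
      (∑ a ∈ s, (((divisor f univ)⁺ a : ℤ) : ℝ)) + ∑ a ∈ s, (((divisor f univ)⁻ a : ℤ) : ℝ) := by
    rw [← Finset.sum_add_distrib]
    refine Finset.sum_congr rfl fun a _ => ?_
    rw [posPart_apply, negPart_apply, ← Int.cast_add, posPart_add_negPart, Int.cast_abs]
  have hlog : (ρ - R) / ρ ≤ Real.log (ρ / R) := by
    have h := Real.one_sub_inv_le_log_of_pos (x := ρ / R) (by positivity)
    rw [inv_div] at h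
    rwa [sub_div, div_self hρ0.ne']
  have h1 := sum_mul_log_le_logCounting (posPart_nonneg (divisor f univ)) hR hρ s hs
  have h2 := sum_mul_log_le_logCounting (negPart_nonneg (divisor f univ)) hR hρ s hs
  rw [← logCounting_zero] at h1
  rw [← logCounting_top] at h2
  have h3 := characteristic_zero_le hf ρ
  have h4 : 0 ≤ proximity f 0 ρ := proximity_nonneg ρ
  have h5 : ValueDistribution.logCounting f ⊤ ρ ≤ characteristic f ⊤ ρ :=
    le_add_of_nonneg_left (proximity_nonneg ρ)
  have h6 : 0 ≤ ∑ a ∈ s, |(divisor f univ a : ℝ)| := Finset.sum_nonneg fun _ _ => abs_nonneg _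
  refine (mul_le_mul_of_nonneg_left hlog h6).trans ?_
  rw [hsplit, add_mul]
  linarith

/-- The mean of `|log ‖f‖|`. -/
theorem circleAverage_abs_log_le (hf : Meromorphic f) {R : ℝ} (hR : 1 ≤ R) :
    Real.circleAverage (fun z => |Real.log ‖f z‖|) 0 R ≤
      2 * characteristic f ⊤ R + invConst f := by
  have e : (fun z => |Real.log ‖f z‖|) =
      fun z => Real.posLog ‖f z‖ + Real.posLog ‖f⁻¹ z‖ := funext fun z => by
    rw [Pi.inv_apply, norm_inv, Real.posLog_apply, Real.posLog_apply, Real.log_inv]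
    rcases le_total 0 (Real.log ‖f z‖) with h | h
    · rw [abs_of_nonneg h, max_eq_right h, max_eq_left (neg_nonpos.2 h), add_zero]
    · rw [abs_of_nonpos h, max_eq_left h, max_eq_right (neg_nonneg.2 h), zero_add]
  rw [e, Real.circleAverage_fun_add hf.meromorphicOn.circleIntegrable_posLog_norm
    hf.inv.meromorphicOn.circleIntegrable_posLog_norm]
  have h1 : Real.circleAverage (fun z => Real.posLog ‖f z‖) 0 R ≤ characteristic f ⊤ R := by
    rw [characteristic, Pi.add_apply, proximity_top]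
    exact le_add_of_nonneg_right (logCounting_nonneg hR)
  have h2 : Real.circleAverage (fun z => Real.posLog ‖f⁻¹ z‖) 0 R = proximity f 0 R := by
    rw [proximity_zero_of_complexValued]
  have h3 := characteristic_zero_le hf R
  have h4 : 0 ≤ ValueDistribution.logCounting f 0 R := logCounting_nonneg hR
  linarith

/-- A radius between two others whose circle carries no zeros and no poles. -/
theorem exists_radius (f : ℂ → ℂ) {R₁ R₂ : ℝ} (h : R₁ < R₂) :
    ∃ R ∈ Ioo R₁ R₂, ∀ a : ℂ, ‖a‖ = R → divisor f univ a = 0 := by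
  obtain ⟨S, hS⟩ : ∃ S : Set ℝ,
      S = norm '' (closedBall (0 : ℂ) R₂ ∩ (divisor f univ).support) := ⟨_, rfl⟩
  have hfin : S.Finite := hS ▸
    ((locallyFinsupp.locallyFiniteSupport _).finite_inter_support_of_isCompact
      (isCompact_closedBall _ _)).image _
  obtain ⟨R, hR, hRS⟩ := (Ioo_infinite h).exists_notMem_finite hfin
  refine ⟨R, hR, fun a ha => ?_⟩
  by_contra hne
  exact hRS (hS ▸ ⟨a, ⟨by rw [mem_closedBall_zero_iff, ha]; exact hR.2.le, hne⟩, ha⟩)

/-- On an open set, agreement off a discrete set is agreement near every agreeing point. -/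
theorem eventuallyEq_nhds_of_codiscreteWithin {g : ℂ → ℂ} {U : Set ℂ} (hU : IsOpen U)
    (h : f =ᶠ[codiscreteWithin U] g) {x : ℂ} (hx : x ∈ U) (heq : f x = g x) :
    f =ᶠ[𝓝 x] g := by
  have h1 := mem_codiscreteWithin_iff_forall_mem_nhdsNE.1 h x hx
  rw [mem_nhdsWithin_iff_eventually] at h1
  filter_upwards [h1, hU.mem_nhds hx] with w hw hwU
  rcases eq_or_ne w x with rfl | hne
  · exact heq
  · exact (hw hne).resolve_right fun hc => hc hwU

/-- The logarithmic derivative of a canonical factor. -/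
theorem logDeriv_canonicalFactor {R : ℝ} (hR : R ≠ 0) {a z : ℂ} (hza : z ≠ a)
    (hn : (R : ℂ) ^ 2 - conj a * z ≠ 0) :
    logDeriv (canonicalFactor R a) z = -conj a / ((R : ℂ) ^ 2 - conj a * z) - (z - a)⁻¹ := by
  have hd : (R : ℂ) * (z - a) ≠ 0 := mul_ne_zero (ofReal_ne_zero.2 hR) (sub_ne_zero.2 hza)
  have h : HasDerivAt (canonicalFactor R a)
      ((-conj a * ((R : ℂ) * (z - a)) - ((R : ℂ) ^ 2 - conj a * z) * R) /
        ((R : ℂ) * (z - a)) ^ 2) z := by
    rw [canonicalFactor_def]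
    refine HasDerivAt.fun_div ?_ ?_ hd
    · simpa using ((hasDerivAt_id' z).const_mul (conj a)).const_sub ((R : ℂ) ^ 2)
    · simpa using ((hasDerivAt_id' z).sub_const a).const_mul (R : ℂ)
  rw [logDeriv_apply, h.deriv, canonicalFactor_apply]
  have hza' := sub_ne_zero.2 hza
  have hR' : (R : ℂ) ≠ 0 := ofReal_ne_zero.2 hR
  field_simp

theorem sqrt_sum_le {ι : Type*} (s : Finset ι) (x : ι → ℝ) (hx : ∀ i ∈ s, 0 ≤ x i) :
    √(∑ i ∈ s, x i) ≤ ∑ i ∈ s, √(x i) := by
  rw [Real.sqrt_le_left (Finset.sum_nonneg fun i _ => Real.sqrt_nonneg _), sq, Finset.sum_mul]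
  refine Finset.sum_le_sum fun i hi => ?_
  calc x i = √(x i) * √(x i) := (Real.mul_self_sqrt (hx i hi)).symm
    _ ≤ _ := mul_le_mul_of_nonneg_left
      (Finset.single_le_sum (f := fun j => √(x j)) (fun j _ => Real.sqrt_nonneg _) hi)
      (Real.sqrt_nonneg _)

theorem sqrt_add_le' {x y : ℝ} (hx : 0 ≤ x) (hy : 0 ≤ y) : √(x + y) ≤ √x + √y := by
  rw [Real.sqrt_le_left (by positivity)]
  nlinarith [Real.mul_self_sqrt hx, Real.mul_self_sqrt hy, Real.sqrt_nonneg x, Real.sqrt_nonneg y]

theorem posLog_le_sqrt {x : ℝ} (hx : 0 ≤ x) : Real.posLog x ≤ 2 * Real.log (1 + √x) := by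
  rw [Real.posLog_eq_log_max_one hx, ← Real.log_rpow (by positivity)]
  refine Real.log_le_log (by positivity) (max_le ?_ ?_)
  · exact Real.one_le_rpow (le_add_of_nonneg_right (Real.sqrt_nonneg _)) (by norm_num)
  · rw [Real.rpow_two]
    nlinarith [Real.mul_self_sqrt hx, Real.sqrt_nonneg x]

/-- The logarithm lies below its tangent. -/
theorem log_one_add_le {y m : ℝ} (hy : 0 ≤ y) (hm : 0 ≤ m) :
    Real.log (1 + y) ≤ Real.log (1 + m) + (y - m) / (1 + m) := by
  have h := Real.log_le_sub_one_of_pos (x := (1 + y) / (1 + m)) (by positivity)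
  rw [Real.log_div (by positivity) (by positivity)] at h
  have e : (1 + y) / (1 + m) - 1 = (y - m) / (1 + m) := by field_simp; ring
  linarith

/-- **The estimate with explicit radii.** -/
theorem proximity_logDeriv_le (hf : Meromorphic f) (hne : ∀ z, meromorphicOrderAt f z ≠ ⊤)
    {r R₁ R₂ : ℝ} (hr : 1 ≤ r) (hR₁ : r < R₁) (hR₁₂ : R₁ < R₂) :
    ∃ R ∈ Ioo R₁ R₂, ∀ ρ, R₂ ≤ ρ → ∃ n : ℝ, 0 ≤ n ∧
      n * ((ρ - R₂) / ρ) ≤ 2 * characteristic f ⊤ ρ + invConst f ∧
      proximity (logDeriv f) ⊤ r ≤ 2 * Real.log (1 +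
        (√(2 * R / (R₁ - r) ^ 2 * (2 * characteristic f ⊤ R + invConst f) + n / (R₁ - r)) +
          n * (singConst * √(r⁻¹)))) := by
  classical
  obtain ⟨R, hR, hsphere⟩ := exists_radius f hR₁₂
  refine ⟨R, hR, fun ρ hρ => ?_⟩
  have hR0 : 0 < R := by linarith [hR.1]
  have hfR : MeromorphicOn f (closedBall 0 R) := hf.meromorphicOn
  obtain ⟨h, D⟩ := hfR.exists_ecanonicalDecomp fun u => hne u
  obtain ⟨d, hd⟩ : ∃ d : ℂ → ℤ, d = fun a => divisor f (ball 0 R) a := ⟨_, rfl⟩
  obtain ⟨s, hs⟩ : ∃ s : Finset ℂ,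
      s = (hfR.divisor_ball_support_finite : (divisor f (ball 0 R)).support.Finite).toFinset :=
    ⟨_, rfl⟩
  have hsmem : ∀ a, a ∈ s ↔ d a ≠ 0 := fun a => by rw [hs, Set.Finite.mem_toFinset, hd]; rfl
  have hsball : ∀ a ∈ s, ‖a‖ < R := fun a ha => by
    rw [← mem_ball_zero_iff]
    refine (divisor f (ball 0 R)).supportWithinDomain ?_
    have h' := (hsmem a).1 ha
    rw [hd] at h'
    exact h'
  have hdval : ∀ a ∈ s, d a = divisor f univ a := fun a ha => by
    have hb : a ∈ ball (0 : ℂ) R := mem_ball_zero_iff.2 (hsball a ha)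
    rw [hd]
    simp only
    rw [divisor_apply hf.meromorphicOn hb, divisor_apply hf.meromorphicOn (mem_univ a)]
  have hsph : ∀ v, divisor f (sphere 0 R) v = 0 := fun v => by
    by_cases hv : v ∈ sphere (0 : ℂ) R
    · rw [divisor_apply hf.meromorphicOn hv, ← divisor_apply hf.meromorphicOn (mem_univ v)]
      exact hsphere v (mem_sphere_zero_iff_norm.1 hv)
    · exact apply_eq_zero_of_notMem _ hv
  obtain ⟨Φ, hΦ⟩ : ∃ Φ : ℂ → ℂ,
      Φ = fun z => (∏ a ∈ s, canonicalFactor R a z ^ (-d a)) * h z := ⟨_, rfl⟩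
  have hΦeq : f =ᶠ[codiscreteWithin (closedBall 0 R)] Φ := by
    refine D.eventuallyEq.trans (Eventually.of_forall fun z => ?_)
    rw [finprod_eq_prod_of_mulSupport_subset (s := s) _ (by
      intro a ha
      rw [Finset.mem_coe, hsmem, hd]
      intro h0
      exact ha (by simp only at h0; simp [h0])),
      finprod_eq_one_of_forall_eq_one (fun v => by rw [hsph, zpow_zero]), hΦ, mul_one]
    simp [hd, Finset.prod_apply, smul_eq_mul]
  -- the free factor
  obtain ⟨G, hG, hG', hGre⟩ := exists_log_of_ne_zero hR0 D.analyticOnNhd D.ne_zero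
  have hA : Real.circleAverage (fun w => |(G w).re|) 0 R ≤
      2 * characteristic f ⊤ R + invConst f := by
    refine le_trans (le_of_eq ?_) (circleAverage_abs_log_le hf (by linarith [hR.1]))
    refine Real.circleAverage_congr_codiscreteWithin ?_ hR0.ne'
    rw [abs_of_pos hR0]
    filter_upwards [hΦeq.filter_mono (codiscreteWithin_mono sphere_subset_closedBall),
      self_mem_codiscreteWithin (sphere (0 : ℂ) R)] with z hz hzs
    have hzc : z ∈ closedBall (0 : ℂ) R := sphere_subset_closedBall hzs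
    rw [hGre z hzc, hz, hΦ]
    simp only
    rw [norm_mul, norm_prod, Finset.prod_eq_one fun a ha => by
      rw [norm_zpow, norm_canonicalFactor_eval_circle_eq_one
        (mem_ball_zero_iff.2 (hsball a ha)) hzs, one_zpow], one_mul]
  -- the logarithmic derivative
  obtain ⟨L, hL⟩ : ∃ L : ℂ → ℂ, L = fun z => logDeriv h z +
      ∑ a ∈ s, ((-d a : ℤ) : ℂ) * (-conj a / ((R : ℂ) ^ 2 - conj a * z) - (z - a)⁻¹) := ⟨_, rfl⟩
  have hden : ∀ a ∈ s, ∀ z : ℂ, ‖z‖ ≤ R₁ →
      R * (R - ‖z‖) ≤ ‖(R : ℂ) ^ 2 - conj a * z‖ := by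
    intro a ha z _
    refine le_trans ?_ (norm_sub_norm_le _ _)
    rw [norm_pow, Complex.norm_real, Real.norm_of_nonneg hR0.le, norm_mul, RCLike.norm_conj]
    nlinarith [mul_le_mul_of_nonneg_right (hsball a ha).le (norm_nonneg z)]
  have hrball : sphere (0 : ℂ) r ⊆ ball 0 R₁ := fun z hz => by
    rw [mem_ball_zero_iff, mem_sphere_zero_iff_norm.1 hz]
    exact hR₁
  have hLeq : logDeriv f =ᶠ[codiscreteWithin (ball 0 R₁)] L := by
    have hsub : ball (0 : ℂ) R₁ ⊆ closedBall 0 R :=
      (ball_subset_ball hR.1.le).trans ball_subset_closedBall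
    have hfin : ((s : Set ℂ))ᶜ ∈ codiscreteWithin (ball (0 : ℂ) R₁) :=
      codiscreteWithin_mono (subset_univ _) s.finite_toSet.compl_mem_codiscrete
    filter_upwards [hΦeq.filter_mono (codiscreteWithin_mono hsub), hfin,
      self_mem_codiscreteWithin (ball (0 : ℂ) R₁)] with z hz hzs hzb
    have hev := eventuallyEq_nhds_of_codiscreteWithin isOpen_ball
      (hΦeq.filter_mono (codiscreteWithin_mono hsub)) hzb hz
    have hzc := hsub hzb
    have hzn : ‖z‖ < R₁ := mem_ball_zero_iff.1 hzb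
    have hfac : ∀ a ∈ s, canonicalFactor R a z ≠ 0 ∧
        DifferentiableAt ℂ (canonicalFactor R a) z ∧ z ≠ a := fun a ha => by
      have hza : z ≠ a := fun e => hzs (e ▸ Finset.mem_coe.2 ha)
      exact ⟨canonicalFactor_ne_zero (mem_ball_zero_iff.2 (hsball a ha)) hzc hza,
        (analyticOnNhd_canonicalFactor R a z hza).differentiableAt, hza⟩
    have hdiff : ∀ a ∈ s, DifferentiableAt ℂ (fun w => canonicalFactor R a w ^ (-d a)) z :=
      fun a ha => (hfac a ha).2.1.zpow (Or.inl (hfac a ha).1)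
    have hP : (∏ a ∈ s, canonicalFactor R a z ^ (-d a)) ≠ 0 :=
      Finset.prod_ne_zero_iff.2 fun a ha => zpow_ne_zero _ (hfac a ha).1
    rw [logDeriv_apply, hev.deriv_eq, hz, ← logDeriv_apply, hΦ,
      logDeriv_mul (f := fun w => ∏ a ∈ s, canonicalFactor R a w ^ (-d a)) z hP (D.ne_zero z hzc)
        (DifferentiableAt.fun_finsetProd hdiff)
        (D.analyticOnNhd z hzc).differentiableAt,
      logDeriv_prod (f := fun a w => canonicalFactor R a w ^ (-d a))
        (fun a ha => zpow_ne_zero (-d a) (hfac a ha).1) hdiff, hL, add_comm]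
    congr 1
    refine Finset.sum_congr rfl fun a ha => ?_
    rw [logDeriv_fun_zpow (hfac a ha).2.1, logDeriv_canonicalFactor hR0.ne' (hfac a ha).2.2]
    refine norm_pos_iff.1 (lt_of_lt_of_le ?_ (hden a ha z hzn.le))
    exact mul_pos hR0 (by linarith [hR.1])
  obtain ⟨n, hn⟩ : ∃ n : ℝ, n = ∑ a ∈ s, |(d a : ℝ)| := ⟨_, rfl⟩
  have hn0 : 0 ≤ n := hn ▸ Finset.sum_nonneg fun _ _ => abs_nonneg _
  refine ⟨n, hn0, ?_, ?_⟩
  · rw [hn, Finset.sum_congr rfl fun a ha => by rw [hdval a ha]]
    exact sum_abs_divisor_le hf (by linarith) hρ s fun a ha => (hsball a ha).le.trans hR.2.le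
  obtain ⟨K₀, hK₀⟩ : ∃ K₀ : ℝ, K₀ =
      2 * R / (R₁ - r) ^ 2 * (2 * characteristic f ⊤ R + invConst f) + n / (R₁ - r) := ⟨_, rfl⟩
  have hA0 : 0 ≤ Real.circleAverage (fun w => |(G w).re|) 0 R :=
    Real.circleAverage_nonneg_of_nonneg fun _ _ => abs_nonneg _
  have hK₀0 : 0 ≤ K₀ := by
    rw [hK₀]
    have : 0 ≤ R₁ - r := by linarith
    have := hA0.trans hA
    positivity
  have hLbound : ∀ z ∈ sphere (0 : ℂ) r,
      ‖L z‖ ≤ K₀ + ∑ a ∈ s, |(d a : ℝ)| * ‖z - a‖⁻¹ := by
    intro z hz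
    have hzr : ‖z‖ = r := mem_sphere_zero_iff_norm.1 hz
    rw [hL, hK₀, add_assoc]
    refine (norm_add_le _ _).trans (add_le_add ?_ ?_)
    · rw [← hG' z (mem_ball_zero_iff.2 (by linarith [hR.1]))]
      refine (norm_deriv_le_circleAverage hG (by linarith [hR.1] : r < R) hzr.le).trans ?_
      refine mul_le_mul ?_ hA hA0 (by positivity)
      gcongr
      all_goals linarith [hR.1]
    · refine (norm_sum_le_of_le _ fun a ha => ?_).trans
        (le_of_eq (Finset.sum_add_distrib (f := fun a => |(d a : ℝ)| / (R₁ - r))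
          (g := fun a => |(d a : ℝ)| * ‖z - a‖⁻¹)) |>.trans ?_)
      · rw [norm_mul, Int.cast_neg, norm_neg, Complex.norm_intCast,
          div_eq_mul_inv (|(d a : ℝ)|), ← mul_add]
        refine mul_le_mul_of_nonneg_left ((norm_sub_le _ _).trans (add_le_add ?_ ?_))
          (abs_nonneg _)
        · rw [norm_div, norm_neg, RCLike.norm_conj]
          refine (div_le_div₀ hR0.le (hsball a ha).le ?_
            (hden a ha z (by linarith))).trans ?_
          · exact mul_pos hR0 (by linarith [hR.1])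
          · rw [hzr, div_mul_cancel_left₀ hR0.ne']
            exact inv_anti₀ (by linarith) (by linarith [hR.1])
        · rw [norm_inv]
      · rw [hn, Finset.sum_div]
  -- the mean
  obtain ⟨m, hm⟩ : ∃ m : ℝ, m = √K₀ + n * (singConst * √(r⁻¹)) := ⟨_, rfl⟩
  have hm0 : 0 ≤ m := by
    rw [hm]
    have := singConst_nonneg
    positivity
  obtain ⟨Y, hY⟩ : ∃ Y : ℂ → ℝ,
      Y = fun z => √K₀ + ∑ a ∈ s, |(d a : ℝ)| * √(‖z - a‖⁻¹) := ⟨_, rfl⟩
  have hr0 : 0 < r := by linarith
  have hsumi : CircleIntegrable (fun z => ∑ a ∈ s, |(d a : ℝ)| * √(‖z - a‖⁻¹)) 0 r :=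
    CircleIntegrable.fun_sum s fun a _ => (circleIntegrable_singular hr0 a).2.1.const_fun_smul
  have hYi : CircleIntegrable Y 0 r := hY ▸ (circleIntegrable_const _ _ _).add hsumi
  have hYm : Real.circleAverage Y 0 r ≤ m := by
    have hterm : ∀ a ∈ s, CircleIntegrable (fun z => |(d a : ℝ)| * √(‖z - a‖⁻¹)) 0 r :=
      fun a _ => (circleIntegrable_singular hr0 a).2.1.const_fun_smul
    rw [hY, Real.circleAverage_fun_add (circleIntegrable_const _ _ _) hsumi,
      Real.circleAverage_const, Real.circleAverage_fun_sum hterm, hm, hn, Finset.sum_mul]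
    refine add_le_add le_rfl (Finset.sum_le_sum fun a _ => ?_)
    rw [show (fun z => |(d a : ℝ)| * √(‖z - a‖⁻¹)) = fun z => |(d a : ℝ)| • √(‖z - a‖⁻¹) from rfl,
      Real.circleAverage_fun_smul]
    exact smul_le_smul_of_nonneg_left (circleIntegrable_singular hr0 a).2.2 (abs_nonneg _)
  have hmeroL : MeromorphicOn L (sphere 0 |r|) := by
    rw [abs_of_pos hr0, hL]
    intro z hz
    have hh : AnalyticAt ℂ h z := D.analyticOnNhd z (ball_subset_closedBall
      (mem_ball_zero_iff.2 (by rw [mem_sphere_zero_iff_norm.1 hz]; linarith [hR.1])))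
    exact (hh.deriv.meromorphicAt.div hh.meromorphicAt).add
      (MeromorphicAt.fun_sum fun a _ => by fun_prop)
  rw [proximity_top, Real.circleAverage_congr_codiscreteWithin (f₂ := fun z => Real.posLog ‖L z‖)
    (by
      rw [abs_of_pos hr0]
      filter_upwards [hLeq.filter_mono (codiscreteWithin_mono hrball)] with z hz
      rw [hz]) hr0.ne']
  have hpt : ∀ z ∈ sphere (0 : ℂ) |r|, Real.posLog ‖L z‖ ≤
      2 * (Real.log (1 + m) + (Y z - m) / (1 + m)) := by
    intro z hz
    rw [abs_of_pos hr0] at hz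
    refine (posLog_le_sqrt (norm_nonneg _)).trans ?_
    have hY0 : 0 ≤ Y z := by rw [hY]; positivity
    refine mul_le_mul_of_nonneg_left (le_trans ?_ (log_one_add_le hY0 hm0)) two_pos.le
    refine Real.log_le_log (by positivity) (add_le_add le_rfl ?_)
    refine (Real.sqrt_le_sqrt (hLbound z hz)).trans ?_
    rw [hY]
    refine ((sqrt_add_le' hK₀0 (Finset.sum_nonneg fun a _ => by positivity)).trans
      (add_le_add le_rfl ((sqrt_sum_le s _ fun a _ => by positivity).trans
        (Finset.sum_le_sum fun a _ => ?_))))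
    rw [Real.sqrt_mul (abs_nonneg _)]
    refine mul_le_mul_of_nonneg_right ?_ (Real.sqrt_nonneg _)
    rcases eq_or_ne (d a) 0 with h0 | h0
    · simp [h0]
    · have h1 : (1 : ℝ) ≤ |(d a : ℝ)| := by exact_mod_cast Int.one_le_abs h0
      rw [Real.sqrt_le_left (abs_nonneg _)]
      nlinarith
  have hform : (fun z => 2 * (Real.log (1 + m) + (Y z - m) / (1 + m))) =
      fun z => (2 * Real.log (1 + m) - 2 / (1 + m) * m) + (2 / (1 + m)) • Y z :=
    funext fun z => by rw [smul_eq_mul]; ring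
  have hright : CircleIntegrable (fun z => 2 * (Real.log (1 + m) + (Y z - m) / (1 + m))) 0 r :=
    hform ▸ (circleIntegrable_const _ _ _).add hYi.const_fun_smul
  refine (Real.circleAverage_mono hmeroL.circleIntegrable_posLog_norm hright hpt).trans ?_
  have e : Real.circleAverage (fun z => 2 * (Real.log (1 + m) + (Y z - m) / (1 + m))) 0 r =
      2 * Real.log (1 + m) + 2 / (1 + m) * (Real.circleAverage Y 0 r - m) := by
    rw [hform,
      Real.circleAverage_fun_add (circleIntegrable_const _ _ _) hYi.const_fun_smul,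
      Real.circleAverage_const, Real.circleAverage_fun_smul, smul_eq_mul]
    ring
  rw [e, ← hK₀, ← hm]
  have : 2 / (1 + m) * (Real.circleAverage Y 0 r - m) ≤ 0 :=
    mul_nonpos_of_nonneg_of_nonpos (by positivity) (by linarith)
  linarith

/-- A quantity bounded by `C (1 + log (1 + T))` outside a set of finite logarithmic measure. -/
def SmallError (f : ℂ → ℂ) (S : ℝ → ℝ) : Prop :=
  ∃ C : ℝ, 0 ≤ C ∧ ∃ E : Set ℝ, LogFinite E ∧
    ∀ r, 1 ≤ r → r ∉ E → S r ≤ C * (1 + Real.log (1 + characteristic f ⊤ r))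

/-- **The lemma on the logarithmic derivative.** -/
theorem smallError_proximity_logDeriv (hf : Meromorphic f)
    (hne : ∀ z, meromorphicOrderAt f z ≠ ⊤) :
    SmallError f (proximity (logDeriv f) ⊤) := by
  obtain ⟨u, hu⟩ : ∃ u : ℝ → ℝ, u = fun r => characteristic f ⊤ r + 1 := ⟨_, rfl⟩
  have hu1 : ∀ r, 1 ≤ r → 1 ≤ u r := fun r hr => by
    rw [hu]
    exact le_add_of_nonneg_left (characteristic_nonneg hr)
  have humono : MonotoneOn u (Ici 1) := fun x hx y hy hxy => by
    rw [hu]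
    exact add_le_add (characteristic_monotoneOn hf
      (mem_Ioi.2 (lt_of_lt_of_le one_pos (mem_Ici.1 hx)))
      (mem_Ioi.2 (lt_of_lt_of_le one_pos (mem_Ici.1 hy))) hxy) le_rfl
  obtain ⟨B, hB⟩ : ∃ B : ℝ, B = 4 + invConst f := ⟨_, rfl⟩
  have hB0 : 0 < B := by linarith [invConst_nonneg f]
  have hc0 := singConst_nonneg
  obtain ⟨P, hP⟩ : ∃ P : ℝ, P = 2 + 80 * B + 4 * B * singConst := ⟨_, rfl⟩
  have hP1 : 1 ≤ P := by nlinarith
  refine ⟨2 * Real.log P + 10, by linarith [Real.log_nonneg hP1], growthSet u,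
    logFinite_growthSet humono hu1, fun r hr hrE => ?_⟩
  obtain ⟨w, hw⟩ : ∃ w, w = u r := ⟨_, rfl⟩
  have hw1 : 1 ≤ w := hw ▸ hu1 r hr
  obtain ⟨η, hη⟩ : ∃ η : ℝ, η = 1 / w ^ 2 := ⟨_, rfl⟩
  have hη0 : 0 < η := by rw [hη]; positivity
  have hη1 : η ≤ 1 := by
    rw [hη, div_le_one (by positivity)]
    exact one_le_pow₀ hw1
  have hgrow : u (r * (1 + η)) ≤ 2 * w := by
    by_contra h
    push Not at h
    exact hrE ⟨hr, by rw [← hw, ← hη]; exact h⟩
  have hrη : 0 < r * η := by positivity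
  obtain ⟨R, hR, hRρ⟩ := proximity_logDeriv_le hf hne hr (show r < r + r * η / 4 by linarith)
    (show r + r * η / 4 < r + r * η / 2 by linarith)
  obtain ⟨n, hn0, hn, hmain⟩ := hRρ (r * (1 + η)) (by nlinarith)
  have hTbound : ∀ x, r ≤ x → x ≤ r * (1 + η) →
      2 * characteristic f ⊤ x + invConst f ≤ B * w := by
    intro x hx hx'
    have h2 : u x ≤ 2 * w :=
      (humono (mem_Ici.2 (hr.trans hx)) (mem_Ici.2 ((hr.trans hx).trans hx')) hx').trans hgrow
    rw [hu] at h2
    simp only at h2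
    have := invConst_nonneg f
    rw [hB]
    nlinarith
  have hN := hTbound (r * (1 + η)) (by nlinarith) le_rfl
  have hA := hTbound R (by linarith [hR.1]) (by nlinarith [hR.2])
  have hA0 : 0 ≤ 2 * characteristic f ⊤ R + invConst f := by
    have h1 := invConst_nonneg f
    have h2 : 0 ≤ characteristic f ⊤ R := characteristic_nonneg (by linarith [hR.1])
    linarith
  have hn' : n ≤ 4 * B * w ^ 3 := by
    have e : (r * (1 + η) - (r + r * η / 2)) / (r * (1 + η)) = η / (2 * (1 + η)) := by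
      field_simp
      ring
    rw [e] at hn
    have h1 : n * (η / 4) ≤ B * w := by
      refine le_trans (mul_le_mul_of_nonneg_left ?_ hn0) (hn.trans hN)
      rw [div_le_div_iff_of_pos_left hη0 (by norm_num) (by positivity)]
      linarith
    rw [hη] at h1
    have h2 := mul_le_mul_of_nonneg_left h1 (show (0 : ℝ) ≤ 4 * w ^ 2 by positivity)
    calc n = 4 * w ^ 2 * (n * (1 / w ^ 2 / 4)) := by field_simp
      _ ≤ 4 * w ^ 2 * (B * w) := h2
      _ = _ := by ring
  have hK : 2 * R / (r + r * η / 4 - r) ^ 2 * (2 * characteristic f ⊤ R + invConst f) +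
      n / (r + r * η / 4 - r) ≤ 80 * B * w ^ 5 := by
    rw [show r + r * η / 4 - r = r * η / 4 by ring]
    have hR2 : R ≤ 2 * r := by nlinarith [hR.2]
    have t1 : 2 * R / (r * η / 4) ^ 2 * (2 * characteristic f ⊤ R + invConst f) ≤
        2 * (2 * r) / (r * η / 4) ^ 2 * (B * w) :=
      mul_le_mul (by gcongr) hA hA0 (by positivity)
    have t2 : n / (r * η / 4) ≤ 4 * B * w ^ 3 / (r * η / 4) := by gcongr
    have t3 : 2 * (2 * r) / (r * η / 4) ^ 2 * (B * w) = 64 * B * w ^ 5 / r := by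
      rw [hη]
      field_simp
      ring
    have t4 : 4 * B * w ^ 3 / (r * η / 4) = 16 * B * w ^ 5 / r := by
      rw [hη]
      field_simp
      ring
    have t5 : 64 * B * w ^ 5 / r + 16 * B * w ^ 5 / r ≤ 80 * B * w ^ 5 := by
      rw [← add_div, div_le_iff₀ (by positivity)]
      nlinarith [mul_le_mul_of_nonneg_left hr (show (0 : ℝ) ≤ 80 * B * w ^ 5 by positivity)]
    linarith
  refine hmain.trans ?_
  have hw5 : 1 ≤ w ^ 5 := one_le_pow₀ hw1
  have hin : 1 + (√(2 * R / (r + r * η / 4 - r) ^ 2 * (2 * characteristic f ⊤ R + invConst f) +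
      n / (r + r * η / 4 - r)) + n * (singConst * √(r⁻¹))) ≤ P * w ^ 5 := by
    have s1 : √(80 * B * w ^ 5) ≤ 1 + 80 * B * w ^ 5 := by
      rw [Real.sqrt_le_left (by positivity)]
      nlinarith [show (0 : ℝ) ≤ 80 * B * w ^ 5 by positivity]
    have s2 : √(r⁻¹) ≤ 1 := Real.sqrt_le_one.2 (inv_le_one_of_one_le₀ hr)
    have s3 : n * (singConst * √(r⁻¹)) ≤ 4 * B * w ^ 5 * singConst := by
      refine (mul_le_mul_of_nonneg_left (mul_le_of_le_one_right hc0 s2) hn0).trans ?_
      refine mul_le_mul_of_nonneg_right (hn'.trans ?_) hc0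
      exact mul_le_mul_of_nonneg_left (pow_le_pow_right₀ hw1 (by norm_num)) (by positivity)
    have s4 := (Real.sqrt_le_sqrt hK).trans s1
    rw [hP]
    nlinarith
  refine (mul_le_mul_of_nonneg_left (Real.log_le_log (by positivity) hin) two_pos.le).trans ?_
  rw [Real.log_mul (by positivity) (by positivity), Real.log_pow, hw, hu]
  simp only
  rw [add_comm (characteristic f ⊤ r) 1]
  have hlog : 0 ≤ Real.log (1 + characteristic f ⊤ r) :=
    Real.log_nonneg (le_add_of_nonneg_right (characteristic_nonneg hr))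
  have hlP := Real.log_nonneg hP1
  push_cast
  nlinarith

end FA.Nevanlinna
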