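import Fermat.Agent.Nevanlinna.Counting

/-!
# The second main theorem

For a non-constant meromorphic function on the plane and finitely many distinct values `a`,
`(q - 1) T (r) ≤ N̄ (r, ∞) + ∑ N̄ (r, a) + O (1 + log (1 + T (r)))` outside a set of finite
logarithmic measure (Nevanlinna).
-/

set_option autoImplicit false

noncomputable section

namespace FA.Nevanlinna

open Complex Filter Function MeasureTheory Metric Set MeromorphicOn
open ValueDistribution Function.locallyFinsuppWithin
open scoped Real Topology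

variable {f : ℂ → ℂ}

/-- Where a finite set of values is separated, one value at most is approached. -/
theorem exists_sum_posLog_le (A : Finset ℂ) :
    ∃ K : ℝ, 0 ≤ K ∧ ∀ w : ℂ,
      ∑ a ∈ A, Real.posLog ‖w - a‖⁻¹ ≤ Real.posLog ‖∑ a ∈ A, (w - a)⁻¹‖ + K := by
  classical
  obtain ⟨δ, hδ, hsep⟩ : ∃ δ : ℝ, 0 < δ ∧ ∀ a ∈ A, ∀ b ∈ A, a ≠ b → δ ≤ ‖a - b‖ := by
    have h : ∀ᶠ δ in 𝓝[>] (0 : ℝ), ∀ p ∈ A.offDiag, δ ≤ ‖p.1 - p.2‖ :=
      (eventually_all_finset _).2 fun p hp => (eventually_le_nhds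
        (norm_pos_iff.2 (sub_ne_zero.2 (Finset.mem_offDiag.1 hp).2.2))).filter_mono
          nhdsWithin_le_nhds
    obtain ⟨δ, h1, h2⟩ := (h.and self_mem_nhdsWithin).exists
    exact ⟨δ, h2, fun a ha b hb hab => h1 (a, b) (Finset.mem_offDiag.2 ⟨ha, hb, hab⟩)⟩
  obtain ⟨c, hc⟩ : ∃ c : ℝ, c = A.card + 1 := ⟨_, rfl⟩
  have hc1 : 1 ≤ c := hc ▸ le_add_of_nonneg_left (Nat.cast_nonneg _)
  obtain ⟨τ, hτ⟩ : ∃ τ : ℝ, τ = δ / (4 * c) := ⟨_, rfl⟩
  have hτ0 : 0 < τ := hτ ▸ by positivity
  have hτ2 : τ ≤ δ / 2 := by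
    rw [hτ, div_le_div_iff₀ (by positivity) two_pos]
    nlinarith
  have hl2 : 0 ≤ Real.log 2 := Real.log_nonneg one_le_two
  have hP : 0 ≤ Real.posLog τ⁻¹ := Real.posLog_nonneg
  refine ⟨A.card * Real.posLog τ⁻¹ + Real.log 2, by positivity, fun w => ?_⟩
  have hbd : ∀ a ∈ A, τ ≤ ‖w - a‖ → Real.posLog ‖w - a‖⁻¹ ≤ Real.posLog τ⁻¹ := fun a _ h =>
    Real.posLog_le_posLog (inv_nonneg.2 (norm_nonneg _)) (inv_anti₀ hτ0 h)
  have h0 : 0 ≤ Real.posLog ‖∑ a ∈ A, (w - a)⁻¹‖ := Real.posLog_nonneg
  by_cases hfar : ∀ a ∈ A, τ ≤ ‖w - a‖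
  · refine (Finset.sum_le_sum fun a ha => hbd a ha (hfar a ha)).trans ?_
    rw [Finset.sum_const, nsmul_eq_mul]
    linarith
  push Not at hfar
  obtain ⟨ν, hν, hclose⟩ := hfar
  have hothers : ∀ a ∈ A.erase ν, δ / 2 ≤ ‖w - a‖ := fun a ha => by
    have h1 := hsep ν hν a (Finset.mem_of_mem_erase ha) (Finset.ne_of_mem_erase ha).symm
    have h2 : ‖ν - a‖ ≤ ‖w - ν‖ + ‖w - a‖ := by
      rw [show ν - a = (w - a) - (w - ν) by ring]
      exact (norm_sub_le _ _).trans (le_of_eq (add_comm _ _))
    linarith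
  rw [← Finset.add_sum_erase _ _ hν]
  have hrest : ∑ a ∈ A.erase ν, Real.posLog ‖w - a‖⁻¹ ≤ A.card * Real.posLog τ⁻¹ := by
    refine (Finset.sum_le_sum fun a ha =>
      hbd a (Finset.mem_of_mem_erase ha) (hτ2.trans (hothers a ha))).trans ?_
    rw [Finset.sum_const, nsmul_eq_mul]
    exact mul_le_mul_of_nonneg_right (Nat.cast_le.2 (Finset.card_erase_le)) hP
  have hmain : Real.posLog ‖w - ν‖⁻¹ ≤ Real.log 2 + Real.posLog ‖∑ a ∈ A, (w - a)⁻¹‖ := by
    rcases eq_or_ne w ν with rfl | hne
    · simp only [sub_self, norm_zero, inv_zero, Real.posLog_zero]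
      linarith
    have hx : 0 < ‖w - ν‖ := norm_pos_iff.2 (sub_ne_zero.2 hne)
    have hrest' : ‖∑ a ∈ A.erase ν, (w - a)⁻¹‖ ≤ (2 * ‖w - ν‖)⁻¹ := by
      refine (norm_sum_le_of_le _ fun a ha => (norm_inv (w - a)).le.trans
        (inv_anti₀ (by positivity) (hothers a ha))).trans ?_
      rw [Finset.sum_const, nsmul_eq_mul]
      calc ((A.erase ν).card : ℝ) * (δ / 2)⁻¹ ≤ c * (δ / 2)⁻¹ :=
            mul_le_mul_of_nonneg_right (hc ▸ (Nat.cast_le.2 Finset.card_erase_le).trans
              (le_add_of_nonneg_right zero_le_one)) (by positivity)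
        _ = (2 * τ)⁻¹ := by rw [hτ]; field_simp; ring
        _ ≤ _ := inv_anti₀ (by positivity) (by linarith)
    have h2 : ‖w - ν‖⁻¹ ≤ 2 * ‖∑ a ∈ A, (w - a)⁻¹‖ := by
      rw [← Finset.add_sum_erase _ _ hν]
      have h3 := norm_sub_le ((w - ν)⁻¹ + ∑ a ∈ A.erase ν, (w - a)⁻¹)
        (∑ a ∈ A.erase ν, (w - a)⁻¹)
      rw [add_sub_cancel_right, norm_inv] at h3
      rw [mul_inv] at hrest'
      linarith
    calc Real.posLog ‖w - ν‖⁻¹ ≤ Real.posLog ((2 : ℕ) * ‖∑ a ∈ A, (w - a)⁻¹‖) :=
          Real.posLog_le_posLog (inv_nonneg.2 (norm_nonneg _)) (by exact_mod_cast h2)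
      _ ≤ _ := by exact_mod_cast Real.posLog_nat_mul
  linarith

theorem deriv_order_ne_top (hf : Meromorphic f) (hn : Nonconst f) (z : ℂ) :
    meromorphicOrderAt (deriv f) z ≠ ⊤ := by
  obtain ⟨z₀, a, hpos⟩ : ∃ z₀ a : ℂ, 0 < meromorphicOrderAt (fun w => f w - a) z₀ := by
    have h : ∀ᶠ w in codiscreteWithin (univ : Set ℂ), AnalyticAt ℂ f w :=
      hf.meromorphicOn.analyticAt_mem_codiscreteWithin
    have h' := mem_codiscreteWithin_iff_forall_mem_nhdsNE.1 h 0 (mem_univ 0)
    simp only [compl_univ, union_empty] at h'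
    obtain ⟨z₀, hz₀⟩ := Filter.Eventually.exists (f := 𝓝[≠] (0 : ℂ)) h'
    exact ⟨z₀, f z₀, (attainsAt_coe_iff_order hf).1
      (attainsAt_coe.2 (hz₀.continuousAt.tendsto.mono_left nhdsWithin_le_nhds))⟩
  lift meromorphicOrderAt (fun w => f w - a) z₀ to ℤ using hn a z₀ with n hne
  have h : meromorphicOrderAt (deriv fun w => f w - a) z₀ = ((n - 1 : ℤ) : WithTop ℤ) :=
    meromorphicOrderAt_deriv_eq_sub_one (Int.cast_ne_zero.2 (by
      intro h0
      rw [h0] at hpos
      exact lt_irrefl _ hpos)) hne.symm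
  rw [show deriv (fun w => f w - a) = deriv f from funext fun w => deriv_sub_const a] at h
  exact hf.deriv.exists_meromorphicOrderAt_ne_top_iff_forall.1
    ⟨z₀, by rw [h]; exact WithTop.coe_ne_top⟩ z

theorem int_posPart_eq (n : ℤ) : n⁺ = max n 0 := by
  rcases le_total n 0 with h | h
  · rw [posPart_eq_zero.2 h, max_eq_right h]
  · rw [posPart_eq_self.2 h, max_eq_left h]

theorem int_negPart_eq (n : ℤ) : n⁻ = max (-n) 0 := by
  rw [← posPart_neg, int_posPart_eq]

theorem pole_step {n k : ℤ} (h : n ≠ 0 ∧ k = n - 1 ∨ n = 0 ∧ 0 ≤ k) :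
    max (-k) 0 ≤ max (-n) 0 + min (max (-n) 0) 1 := by omega

theorem zero_step {n : ℤ} (h : 0 < n) : max n 0 ≤ min (max n 0) 1 + max (n - 1) 0 := by omega

/-- Differentiation adds at most one to the order of each pole. -/
theorem negPart_divisor_deriv_le (hf : Meromorphic f) (hn : Nonconst f) :
    (divisor (deriv f) univ)⁻ ≤ valueDivisor f ⊤ + reduceOnce (valueDivisor f ⊤) := by
  refine le_def.2 fun z => ?_
  rw [coe_add, Pi.add_apply, reduceOnce_apply, valueDivisor_top, negPart_apply, negPart_apply,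
    divisor_apply hf.deriv.meromorphicOn (mem_univ z), divisor_apply hf.meromorphicOn (mem_univ z)]
  obtain ⟨n, hn'⟩ := WithTop.ne_top_iff_exists.1 (hn.order_ne_top z)
  obtain ⟨k, hk⟩ := WithTop.ne_top_iff_exists.1 (deriv_order_ne_top hf hn z)
  rw [← hn', ← hk, WithTop.untop₀_coe, WithTop.untop₀_coe, int_negPart_eq, int_negPart_eq]
  rcases eq_or_ne n 0 with rfl | hn0
  · have hk0 : 0 ≤ k := by
      obtain ⟨g, hg, hfg⟩ := (hf z).meromorphicOrderAt_nonneg_iff.1 (le_of_eq hn')
      have h := meromorphicOrderAt_congr hfg.nhdsNE_deriv ▸ hg.deriv.meromorphicOrderAt_nonneg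
      rw [← hk] at h
      exact_mod_cast h
    exact pole_step (Or.inr ⟨rfl, hk0⟩)
  · have h := meromorphicOrderAt_deriv_eq_sub_one (Int.cast_ne_zero.2 hn0) hn'.symm
    rw [← hk, WithTop.coe_eq_coe] at h
    exact pole_step (Or.inl ⟨hn0, h⟩)

/-- Differentiation lowers the order of each point with a prescribed value by exactly one. -/
theorem sum_valueDivisor_le (hf : Meromorphic f) (hn : Nonconst f) (A : Finset ℂ) :
    ∑ a ∈ A, valueDivisor f a ≤
      ∑ a ∈ A, reduceOnce (valueDivisor f a) + (divisor (deriv f) univ)⁺ := by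
  classical
  refine le_def.2 fun z => ?_
  rw [coe_add, Pi.add_apply, coe_sum, coe_sum, Finset.sum_apply, Finset.sum_apply, posPart_apply]
  have hnn : ∀ a : ℂ, 0 ≤ valueDivisor f (a : WithTop ℂ) z := fun a =>
    le_def.1 (valueDivisor_nonneg f a) z
  by_cases hex : ∃ b ∈ A, AttainsAt f b z
  · obtain ⟨b, hb, hbz⟩ := hex
    have hzero : ∀ a ∈ A, a ≠ b → valueDivisor f (a : WithTop ℂ) z = 0 := fun a _ hab => by
      by_contra hne
      exact hab (((attainsAt_iff hf hn).2 (lt_of_le_of_ne (hnn a) (Ne.symm hne))).unique hbz)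
    rw [Finset.sum_eq_single b hzero (fun h => absurd hb h),
      Finset.sum_eq_single b (fun a ha hab => by rw [reduceOnce_apply, hzero a ha hab]; rfl)
        (fun h => absurd hb h), reduceOnce_apply]
    have hpos := (attainsAt_iff hf hn).1 hbz
    obtain ⟨n, hn'⟩ := WithTop.ne_top_iff_exists.1 (hn b z)
    have hval : valueDivisor f (b : WithTop ℂ) z = max n 0 := by
      rw [valueDivisor_coe, posPart_apply,
        divisor_apply (meromorphic_sub_const hf b).meromorphicOn (mem_univ z), ← hn',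
        WithTop.untop₀_coe, int_posPart_eq]
    rw [hval] at hpos ⊢
    have hn1 : 0 < n := by omega
    have h := meromorphicOrderAt_deriv_eq_sub_one (Int.cast_ne_zero.2 hn1.ne') hn'.symm
    rw [show deriv (fun w => f w - b) = deriv f from funext fun w => deriv_sub_const b] at h
    rw [divisor_apply hf.deriv.meromorphicOn (mem_univ z), h, WithTop.untop₀_coe, int_posPart_eq]
    exact zero_step hn1
  · push Not at hex
    have hzero : ∀ a ∈ A, valueDivisor f (a : WithTop ℂ) z = 0 := fun a ha => by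
      by_contra hne
      exact hex a ha ((attainsAt_iff hf hn).2 (lt_of_le_of_ne (hnn a) (Ne.symm hne)))
    rw [Finset.sum_eq_zero hzero]
    exact add_nonneg (Finset.sum_nonneg fun a ha => by
      rw [reduceOnce_apply, hzero a ha]; exact le_min le_rfl zero_le_one)
      (posPart_nonneg _)

theorem proximity_deriv_le (hf : Meromorphic f) (hn : Nonconst f) {r : ℝ} (hr : r ≠ 0) :
    proximity (deriv f) ⊤ r ≤ proximity f ⊤ r + proximity (logDeriv f) ⊤ r := by
  have he : deriv f =ᶠ[codiscrete ℂ] f * logDeriv f := by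
    filter_upwards [hf.meromorphicOn.eventually_codiscreteWithin_apply_ne_zero
      fun x _ => hn.order_ne_top x] with z hz
    rw [Pi.mul_apply, logDeriv_apply, mul_div_cancel₀ _ hz]
  rw [proximity_congr_codiscrete he hr]
  exact proximity_mul_top_le hf hf.logDeriv r

/-- **The second main theorem.** -/
theorem second_main (hf : Meromorphic f) (hn : Nonconst f) (A : Finset ℂ) :
    SmallError f fun r => ((A.card : ℝ) - 1) * characteristic f ⊤ r -
      reducedCounting f ⊤ r - ∑ a ∈ A, reducedCounting f a r := by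
  classical
  obtain ⟨K, -, hK⟩ := exists_sum_posLog_le A
  obtain ⟨D, hD⟩ : ∃ D : ℂ → ℝ,
      D = fun a => Real.posLog ‖a‖ + Real.log 2 + invConst fun w => f w - a := ⟨_, rfl⟩
  have hsmall : SmallError f fun r =>
      (∑ a ∈ A, proximity (logDeriv fun w => f w - a) ⊤ r) + proximity (logDeriv f) ⊤ r +
        (K + Real.log A.card + invConst (deriv f) + ∑ a ∈ A, D a) := by
    refine ((SmallError.sum A fun a _ => ?_).add
      (smallError_proximity_logDeriv hf hn.order_ne_top)).add (smallError_const f _)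
    exact (smallError_proximity_logDeriv (meromorphic_sub_const hf a) (hn a)).of_le
      (add_nonneg Real.posLog_nonneg (Real.log_nonneg one_le_two))
      fun r _ => (characteristic_shift_le hf a r).1
  refine hsmall.mono fun r hr => ?_
  have hr0 : r ≠ 0 := by linarith
  obtain ⟨F, hF⟩ : ∃ F : ℂ → ℂ, F = fun z => ∑ a ∈ A, (f z - a)⁻¹ := ⟨_, rfl⟩
  have hFm : Meromorphic F := hF ▸ fun z =>
    MeromorphicAt.fun_sum fun a _ => (meromorphic_sub_const hf a z).inv
  -- the proximities
  have h1 : ∑ a ∈ A, proximity (fun w => f w - a) 0 r ≤ proximity F ⊤ r + K := by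
    have hint : ∀ a ∈ A, CircleIntegrable (fun z => Real.posLog ‖f z - a‖⁻¹) 0 r := fun a _ => by
      have h := (meromorphic_sub_const hf a).inv.meromorphicOn.circleIntegrable_posLog_norm
        (c := 0) (R := r)
      simpa [norm_inv] using h
    have hFi : CircleIntegrable (fun z => Real.posLog ‖F z‖) 0 r :=
      hFm.meromorphicOn.circleIntegrable_posLog_norm
    simp only [proximity_zero, proximity_top]
    rw [← Real.circleAverage_fun_sum hint, ← Real.circleAverage_const K 0 r,
      ← Real.circleAverage_fun_add hFi (circleIntegrable_const _ _ _)]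
    refine Real.circleAverage_mono (CircleIntegrable.fun_sum A hint)
      (hFi.add (circleIntegrable_const _ _ _)) fun z _ => ?_
    rw [hF]
    exact hK (f z)
  have h2 : proximity F ⊤ r ≤ proximity (deriv f) 0 r +
      (∑ a ∈ A, proximity (logDeriv fun w => f w - a) ⊤ r + Real.log A.card) := by
    have he : F =ᶠ[codiscrete ℂ]
        (deriv f)⁻¹ * ∑ a ∈ A, logDeriv (fun w => f w - a) := by
      filter_upwards [hf.deriv.meromorphicOn.eventually_codiscreteWithin_apply_ne_zero
        fun x _ => deriv_order_ne_top hf hn x] with z hz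
      rw [hF, Pi.mul_apply, Pi.inv_apply, Finset.sum_apply, Finset.mul_sum]
      refine Finset.sum_congr rfl fun a _ => ?_
      rw [logDeriv_apply, deriv_sub_const, div_eq_mul_inv, ← mul_assoc, inv_mul_cancel₀ hz,
        one_mul]
    have hLm : ∀ a ∈ A, Meromorphic (logDeriv fun w => f w - a) := fun a _ =>
      (meromorphic_sub_const hf a).logDeriv
    rw [proximity_congr_codiscrete he hr0]
    refine (proximity_mul_top_le hf.deriv.inv (Meromorphic.sum hLm) r).trans ?_
    rw [Pi.add_apply, proximity_inv]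
    refine add_le_add le_rfl ((proximity_sum_top_le A _ hLm r).trans (le_of_eq ?_))
    simp
  -- the derivative
  have h3 := characteristic_zero_le hf.deriv r
  have h4 : ValueDistribution.logCounting (deriv f) ⊤ r ≤
      ValueDistribution.logCounting f ⊤ r + reducedCounting f ⊤ r := by
    rw [logCounting_top, logCounting_eq_valueDivisor f ⊤, reducedCounting, ← Pi.add_apply,
      ← map_add]
    exact Function.locallyFinsuppWithin.logCounting_le (negPart_divisor_deriv_le hf hn) hr
  have h5 := proximity_deriv_le hf hn hr0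
  have h6 : ∑ a ∈ A, ValueDistribution.logCounting f a r ≤
      (∑ a ∈ A, reducedCounting f a r) + ValueDistribution.logCounting (deriv f) 0 r := by
    simp only [logCounting_eq_valueDivisor f, reducedCounting]
    rw [logCounting_zero, ← Finset.sum_apply, ← Finset.sum_apply, ← map_sum, ← map_sum,
      ← Pi.add_apply, ← map_add]
    exact Function.locallyFinsuppWithin.logCounting_le (sum_valueDivisor_le hf hn A) hr
  -- the first main theorem
  have h7 : (A.card : ℝ) * characteristic f ⊤ r ≤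
      (∑ a ∈ A, proximity (fun w => f w - a) 0 r) +
        (∑ a ∈ A, ValueDistribution.logCounting f a r) + ∑ a ∈ A, D a := by
    rw [← nsmul_eq_mul, ← Finset.sum_const, ← Finset.sum_add_distrib, ← Finset.sum_add_distrib]
    refine Finset.sum_le_sum fun a _ => ?_
    have hg := meromorphic_sub_const hf a
    have e1 := abs_le.1 (characteristic_sub_characteristic_inv_le (R := r) hg)
    have e2 : characteristic (fun w => f w - a)⁻¹ ⊤ r = proximity (fun w => f w - a) 0 r +
        ValueDistribution.logCounting f a r := by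
      rw [characteristic, Pi.add_apply, proximity_inv, ValueDistribution.logCounting_inv,
        logCounting_coe_eq_logCounting_sub_const_zero]
      rfl
    have e3 := (characteristic_shift_le hf a r).2
    rw [hD]
    simp only [invConst]
    linarith [e1.2]
  have h8 : characteristic f ⊤ r = proximity f ⊤ r + ValueDistribution.logCounting f ⊤ r := rfl
  have h9 : characteristic (deriv f) ⊤ r =
      proximity (deriv f) ⊤ r + ValueDistribution.logCounting (deriv f) ⊤ r := rfl
  rw [sub_mul, one_mul]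
  linarith

/-- The second main theorem for values in the sphere. -/
theorem second_main_sphere (hf : Meromorphic f) (hn : Nonconst f) (A : Finset (WithTop ℂ)) :
    SmallError f fun r => ((A.card : ℝ) - 2) * characteristic f ⊤ r -
      ∑ a ∈ A, reducedCounting f a r := by
  classical
  obtain ⟨B, hB⟩ : ∃ B : Finset ℂ, B = (A.erase ⊤).image WithTop.untop₀ := ⟨_, rfl⟩
  have hinj : InjOn WithTop.untop₀ (A.erase (⊤ : WithTop ℂ) : Set (WithTop ℂ)) :=
    fun x hx y hy h => by
    lift x to ℂ using Finset.ne_of_mem_erase hx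
    lift y to ℂ using Finset.ne_of_mem_erase hy
    simpa using h
  have hsum : ∀ r, ∑ a ∈ B, reducedCounting f a r = ∑ a ∈ A.erase ⊤, reducedCounting f a r :=
    fun r => by
    rw [hB, Finset.sum_image hinj]
    refine Finset.sum_congr rfl fun x hx => ?_
    rw [WithTop.coe_untop₀_of_ne_top (Finset.ne_of_mem_erase hx)]
  have hcard : B.card = (A.erase ⊤).card := hB ▸ Finset.card_image_of_injOn hinj
  refine (second_main hf hn B).mono fun r hr => ?_
  rw [hsum, hcard]
  by_cases htop : (⊤ : WithTop ℂ) ∈ A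
  · rw [← Finset.add_sum_erase _ _ htop, Finset.card_erase_of_mem htop,
      Nat.cast_sub (Finset.card_pos.2 ⟨⊤, htop⟩), Nat.cast_one]
    linarith
  · rw [Finset.erase_eq_of_notMem htop]
    have h1 := reducedCounting_le f ⊤ hr
    have h2 : ValueDistribution.logCounting f ⊤ r ≤ characteristic f ⊤ r :=
      le_add_of_nonneg_left (proximity_nonneg r)
    linarith

end FA.Nevanlinna
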